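import Fermat.Agent.S59.Arch.GluePT
import Fermat.Agent.S59.H765.NMResWiles

/-!
# Row S59, cell NMP (flat `→` ordinary at `p`) — frozen interface (sub-architect helper583)

Board: `coord/S59-NMP.md`.  Goal of the cell: `Arch.NonMinPStatement`
(`RTIso .flat Smin Σ → RTIso .ord Smin Σ`), resp. its module form `NMP⁺` once the invariant
`RTIsoPlus` of the cell NM is frozen.  Definitions only.

Notation: `N = wilesLevel p .flat Smin Σ` (prime to `p`), `N' = wilesLevel p .ord Smin Σ = N p`,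
`T = heckeLocal N Σ 𝒪 θ`, `θ' = θ ∘ oldRestrict`, `T' = heckeLocal N' Σ 𝒪 θ'`,
`res = H765.resLocal : T' →ₐ[𝒪] T` (on main, surjective), `R = R_Σ^{flat}`, `R' = R_Σ^{ord}`.

Leaves (each a `Prop`; a leaf is DONE when `theorem foo : FooStatement` is on main):

* `OrdDatumStatement` (DATUM)  the Hecke–Galois datum `H'` on `T'`, of type `.ord`
      (G4 + frozen S31, S33, S34 + determinant), and `ρ_{T'} ⊗_res T ≅ ρ_T` (Carayol rigidity).
* `SelStatement`      (SEL)    `#Φ_{R'}(x ∘ β) ≤ #Φ_R(x) · #(𝒪/(α² − 1))`, `α` = Frobenius on the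
      unramified quotient of `ρ_x` at `p` (Wiles, Prop. 1.9 (iii)).
* `EtaStatement`      (ETA)    `#(𝒪/η_{T'}(π ∘ res)) ≥ #(𝒪/η_T(π)) · #(𝒪/(α² − 1))` and `α² ≠ 1`
      (Wiles, Ch. 2: Ihara's lemma at `p` + local–global compatibility at `p`).  RING FORM: true,
      but the Ihara route proves it only together with multiplicity one at the level `Σ`;
      see `coord/S59-NMP.md` §3 for the module form (leaves IH, LGC).
* `RedTStatement`     (RED-T)  a deformation condition satisfied over `T` is satisfied by `ρ̄`.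

Glue (`NMP/Glue.lean`): `nonMinP_of : S53 → S54 → SigmaCond → RED-T → DATUM → SEL → ETA →
Arch.NonMinPStatement`.
-/

set_option autoImplicit false

open Polynomial IsLocalRing

namespace Fermat.Agent.S59.NMP

open CuspForm Fermat.Agent.S59.Arch Fermat.Agent.S59.H765

/-- **The unramified Frobenius eigenvalue at `p`.**  `ρ` is ordinary at some place `P` over `p`
with line `L`, and every Frobenius element at `P` acts on the unramified quotient `V/L` by the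
scalar `α`. -/
def UnrFrobAt {A : Type} [CommRing A] [IsLocalRing A] (ρ : GaloisRepAdic A) (p : ℕ) (α : A) :
    Prop :=
  ∃ P : ValuationSubring (AlgebraicClosure ℚ), P.LiesOverPrime p ∧
    ∃ L : Submodule A ρ.V,
      (∃ b : Module.Basis (Fin 2) A ρ.V, L = A ∙ b 0) ∧
      (∀ σ ∈ P.decompositionSubgroup ℚ, ∀ v ∈ L, ρ.ρ σ v ∈ L) ∧
      (∀ σ ∈ P.inertiaSubgroupIn ℚ, ∀ v : ρ.V, ρ.ρ σ v - v ∈ L) ∧
      (∀ σ : AlgebraicClosure ℚ ≃ₐ[ℚ] AlgebraicClosure ℚ, P.IsFrobeniusAt σ p →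
        ∀ v : ρ.V, ρ.ρ σ v - α • v ∈ L)

/-- **RED-T.**  A deformation condition satisfied by a representation over a complete Noetherian
local `𝒪`-algebra `T` (with residue field `k`) is satisfied by (any model of) its residual
representation.  (`Arch.ResidualOfAdicStatement` is the case `T = 𝒪`; same proof.) -/
def RedTStatement : Prop :=
  ∀ (𝒪 : Type) [CommRing 𝒪] [IsDomain 𝒪] [IsDiscreteValuationRing 𝒪]
    [IsAdicComplete (maximalIdeal 𝒪) 𝒪]
    (𝒟 : ∀ ⦃A : Type⦄ [CommRing A] [IsLocalRing A] [Algebra 𝒪 A], GaloisRepAdic A → Prop)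
    (_h𝒟 : GaloisRep.IsDeformationCondition 𝒪 𝒟)
    (T : Type) [CommRing T] [IsLocalRing T] [IsNoetherianRing T]
    [IsAdicComplete (maximalIdeal T) T] [Algebra 𝒪 T] [IsLocalHom (algebraMap 𝒪 T)]
    (_hT : Function.Surjective (residue T ∘ algebraMap 𝒪 T))
    (ρ : GaloisRepAdic T) (ρbar : ResidualGaloisRep (ResidueField 𝒪)),
    ρ.residual.IsEquiv (ρbar.baseChangeAlong (ResidueField.map (algebraMap 𝒪 T))) → 𝒟 ρ →
      𝒟 (GaloisRepAdic.ofResidualGaloisRep ρbar)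

/-- **SEL** (the Selmer step at `p`).  `D`, `D'` universal deformation rings of type flat,
resp. ordinary; `β : R' → R` the canonical map; `x` an `𝒪`-point of `R` with finite cotangent
space; `α` the unramified Frobenius eigenvalue of `ρ_x` at `p`, `α² ≠ 1`.  Then the cotangent
space of `R'` at `x ∘ β` is finite and
`#Φ_{R'} ≤ #Φ_R · #(𝒪/(α² − 1))`.

[`Hom_𝒪(Φ, 𝒪/ϖⁿ)` = deformations of `ρ_x mod ϖⁿ` to `(𝒪/ϖⁿ)[ε]`; an ordinary deformation is an
extension of `χ̃` (unramified) by `ε_cyc χ̃⁻¹`; the valuation component of its Kummer class lies in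
`(𝒪/ϖⁿ)[α² − 1]` and vanishes iff the deformation is flat.] -/
def SelStatement : Prop :=
  ∀ (p : ℕ) [Fact p.Prime]
    (𝒪 : Type) [CommRing 𝒪] [IsDomain 𝒪] [IsDiscreteValuationRing 𝒪]
    [IsAdicComplete (maximalIdeal 𝒪) 𝒪] [Finite (ResidueField 𝒪)] [CharZero 𝒪]
    (ρbar : ResidualGaloisRep (ResidueField 𝒪)) (Smin : Finset ℕ)
    (_h : ResidualHyp p 𝒪 ρbar Smin) (Sig : Finset ℕ)
    (_hSig : Smin ⊆ Sig) (_hSigP : ∀ q ∈ Sig, q.Prime)
    (_hord : (GaloisRepAdic.ofResidualGaloisRep ρbar).IsOrdinaryAt p)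
    (D : GaloisRep.DeformationRingData 𝒪 ρbar (sigmaCond 𝒪 p .flat Smin Sig))
    (D' : GaloisRep.DeformationRingData 𝒪 ρbar (sigmaCond 𝒪 p .ord Smin Sig))
    (β : D'.R →ₐ[𝒪] D.R) (hβ : IsLocalHom (β : D'.R →+* D.R))
    (_hβρ : (D'.ρ.baseChangeAlong (β : D'.R →+* D.R) hβ).IsEquiv D.ρ)
    (x : D.R →ₐ[𝒪] 𝒪) (hx : IsLocalHom (x : D.R →+* 𝒪)) (α : 𝒪)
    (_hα : UnrFrobAt (D.ρ.baseChangeAlong (x : D.R →+* 𝒪) hx) p α) (_hα1 : α ^ 2 ≠ 1)
    (_hfin : Finite (NC.Cot x)),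
    Finite (NC.Cot (x.comp β)) ∧
      Nat.card (NC.Cot (x.comp β)) ≤
        Nat.card (NC.Cot x) * Nat.card (𝒪 ⧸ Ideal.span {α ^ 2 - 1})

/-- **DATUM** (the Hecke side at the level `N p`).  Given the data of `RTIso .flat` (level `N`
prime to `p`), the ring `T' = heckeLocal (N p) Σ 𝒪 (θ ∘ oldRestrict)` carries a Hecke–Galois
datum `H'` of type `.ord` with residual representation `ρ̄`, and `ρ_{T'} ⊗_res T ≅ ρ_T`.

[instances: `S59.H7`, S23; `H'`: layer G4 (`G4.g4_of`, non-Eisenstein by `H765.nonEisenstein_comp`);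
type: frozen S31 (unramified), S33 (ordinary, `p ∥ N p`), S34 (unipotent at `q ∥ N p`), determinant
by Chebotarev; compatibility: equal Frobenius traces (`H765.resLocal_T`) + Chebotarev +
`S59.H307.isEquiv_of_trace_eq`.] -/
def OrdDatumStatement : Prop :=
  ∀ (p : ℕ) [Fact p.Prime]
    (𝒪 : Type) [CommRing 𝒪] [IsDomain 𝒪] [IsDiscreteValuationRing 𝒪]
    [IsAdicComplete (maximalIdeal 𝒪) 𝒪] [Finite (ResidueField 𝒪)] [CharZero 𝒪]
    (ρbar : ResidualGaloisRep (ResidueField 𝒪)) (Smin : Finset ℕ)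
    (_h : ResidualHyp p 𝒪 ρbar Smin) (Sig : Finset ℕ)
    (hSig : Smin ⊆ Sig) (hSigP : ∀ q ∈ Sig, q.Prime) (hpSig : p ∈ Sig)
    (_hord : (GaloisRepAdic.ofResidualGaloisRep ρbar).IsOrdinaryAt p)
    [NeZero (wilesLevel p .flat Smin Sig)]
    [Fact (HasIntegralStructure (wilesLevel p .flat Smin Sig) 2)]
    (θ : heckeAlgebra (wilesLevel p .flat Smin Sig) 2 (↑Sig : Set ℕ) →+* ResidueField 𝒪)
    [IsLocalRing (heckeLocal (wilesLevel p .flat Smin Sig) (↑Sig : Set ℕ) 𝒪 θ)]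
    [IsNoetherianRing (heckeLocal (wilesLevel p .flat Smin Sig) (↑Sig : Set ℕ) 𝒪 θ)]
    [IsAdicComplete (maximalIdeal (heckeLocal (wilesLevel p .flat Smin Sig) (↑Sig : Set ℕ) 𝒪 θ))
      (heckeLocal (wilesLevel p .flat Smin Sig) (↑Sig : Set ℕ) 𝒪 θ)]
    [IsLocalHom (algebraMap 𝒪 (heckeLocal (wilesLevel p .flat Smin Sig) (↑Sig : Set ℕ) 𝒪 θ))]
    [Module.Finite 𝒪 (heckeLocal (wilesLevel p .flat Smin Sig) (↑Sig : Set ℕ) 𝒪 θ)]
    [Module.Free 𝒪 (heckeLocal (wilesLevel p .flat Smin Sig) (↑Sig : Set ℕ) 𝒪 θ)]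
    (H : HeckeGaloisRepDatum (wilesLevel p .flat Smin Sig) (↑Sig : Set ℕ) 𝒪 θ
      (heckeLocal (wilesLevel p .flat Smin Sig) (↑Sig : Set ℕ) 𝒪 θ))
    (_hπ : H.π = heckeLocal.π (wilesLevel p .flat Smin Sig) (↑Sig : Set ℕ) 𝒪 θ)
    (_hres : H.ρ.residual.IsEquiv (ρbar.baseChangeAlong (ResidueField.map (algebraMap 𝒪
      (heckeLocal (wilesLevel p .flat Smin Sig) (↑Sig : Set ℕ) 𝒪 θ)))))
    (_hcond : sigmaCond 𝒪 p .flat Smin Sig H.ρ),
    ∃ (_ : NeZero (wilesLevel p .ord Smin Sig))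
      (_ : Fact (HasIntegralStructure (wilesLevel p .ord Smin Sig) 2))
      (_ : IsLocalRing (heckeLocal (wilesLevel p .ord Smin Sig) (↑Sig : Set ℕ) 𝒪
        (θ.comp (oldRestrict (levelPair_flat_ord p hSig hSigP hpSig)))))
      (_ : IsNoetherianRing (heckeLocal (wilesLevel p .ord Smin Sig) (↑Sig : Set ℕ) 𝒪
        (θ.comp (oldRestrict (levelPair_flat_ord p hSig hSigP hpSig)))))
      (_ : IsAdicComplete
        (maximalIdeal (heckeLocal (wilesLevel p .ord Smin Sig) (↑Sig : Set ℕ) 𝒪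
          (θ.comp (oldRestrict (levelPair_flat_ord p hSig hSigP hpSig)))))
        (heckeLocal (wilesLevel p .ord Smin Sig) (↑Sig : Set ℕ) 𝒪
          (θ.comp (oldRestrict (levelPair_flat_ord p hSig hSigP hpSig)))))
      (_ : IsLocalHom (algebraMap 𝒪 (heckeLocal (wilesLevel p .ord Smin Sig) (↑Sig : Set ℕ) 𝒪
        (θ.comp (oldRestrict (levelPair_flat_ord p hSig hSigP hpSig))))))
      (_ : Module.Finite 𝒪 (heckeLocal (wilesLevel p .ord Smin Sig) (↑Sig : Set ℕ) 𝒪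
        (θ.comp (oldRestrict (levelPair_flat_ord p hSig hSigP hpSig)))))
      (_ : Module.Free 𝒪 (heckeLocal (wilesLevel p .ord Smin Sig) (↑Sig : Set ℕ) 𝒪
        (θ.comp (oldRestrict (levelPair_flat_ord p hSig hSigP hpSig)))))
      (H' : HeckeGaloisRepDatum (wilesLevel p .ord Smin Sig) (↑Sig : Set ℕ) 𝒪
        (θ.comp (oldRestrict (levelPair_flat_ord p hSig hSigP hpSig)))
        (heckeLocal (wilesLevel p .ord Smin Sig) (↑Sig : Set ℕ) 𝒪
          (θ.comp (oldRestrict (levelPair_flat_ord p hSig hSigP hpSig))))),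
      H'.π = heckeLocal.π (wilesLevel p .ord Smin Sig) (↑Sig : Set ℕ) 𝒪
        (θ.comp (oldRestrict (levelPair_flat_ord p hSig hSigP hpSig))) ∧
      H'.ρ.residual.IsEquiv (ρbar.baseChangeAlong (ResidueField.map (algebraMap 𝒪
        (heckeLocal (wilesLevel p .ord Smin Sig) (↑Sig : Set ℕ) 𝒪
          (θ.comp (oldRestrict (levelPair_flat_ord p hSig hSigP hpSig))))))) ∧
      sigmaCond 𝒪 p .ord Smin Sig H'.ρ ∧
      ∃ hres : IsLocalHom
          ((resLocal (levelPair_flat_ord p hSig hSigP hpSig) 𝒪 θ :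
            heckeLocal (wilesLevel p .ord Smin Sig) (↑Sig : Set ℕ) 𝒪
              (θ.comp (oldRestrict (levelPair_flat_ord p hSig hSigP hpSig))) →ₐ[𝒪]
            heckeLocal (wilesLevel p .flat Smin Sig) (↑Sig : Set ℕ) 𝒪 θ) :
            heckeLocal (wilesLevel p .ord Smin Sig) (↑Sig : Set ℕ) 𝒪
              (θ.comp (oldRestrict (levelPair_flat_ord p hSig hSigP hpSig))) →+*
            heckeLocal (wilesLevel p .flat Smin Sig) (↑Sig : Set ℕ) 𝒪 θ),
        (H'.ρ.baseChangeAlong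
          ((resLocal (levelPair_flat_ord p hSig hSigP hpSig) 𝒪 θ :
            heckeLocal (wilesLevel p .ord Smin Sig) (↑Sig : Set ℕ) 𝒪
              (θ.comp (oldRestrict (levelPair_flat_ord p hSig hSigP hpSig))) →ₐ[𝒪]
            heckeLocal (wilesLevel p .flat Smin Sig) (↑Sig : Set ℕ) 𝒪 θ) :
            heckeLocal (wilesLevel p .ord Smin Sig) (↑Sig : Set ℕ) 𝒪
              (θ.comp (oldRestrict (levelPair_flat_ord p hSig hSigP hpSig))) →+*
            heckeLocal (wilesLevel p .flat Smin Sig) (↑Sig : Set ℕ) 𝒪 θ) hres).IsEquiv H.ρ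

/-- **ETA** (the Hecke step at `p`, ring form).  In the situation of DATUM, for an `𝒪`-point
`π` of `T` at which the numerical equality of `RTIso .flat` holds, and the unramified Frobenius
eigenvalue `α` of `ρ_π` at `p`:  `α² ≠ 1`  and
`#(𝒪/η_T(π)) · #(𝒪/(α² − 1)) ≤ #(𝒪/η_{T'}(π ∘ res))`.

[Wiles, Ch. 2 (2.24): `η_{T'} ⊆ (a_p² − (p+1)²) η_T` by Ihara's lemma at `p` and the adjoint
degeneracy maps, `a_p² − (p+1)² = (α² − 1)(1 − p²/α²)` by `a_p = α + p/α`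
(Eichler–Shimura at `p`); `α² ≠ 1` since `T'` is reduced.] -/
def EtaStatement : Prop :=
  ∀ (p : ℕ) [Fact p.Prime]
    (𝒪 : Type) [CommRing 𝒪] [IsDomain 𝒪] [IsDiscreteValuationRing 𝒪]
    [IsAdicComplete (maximalIdeal 𝒪) 𝒪] [Finite (ResidueField 𝒪)] [CharZero 𝒪]
    (ρbar : ResidualGaloisRep (ResidueField 𝒪)) (Smin : Finset ℕ)
    (_h : ResidualHyp p 𝒪 ρbar Smin) (Sig : Finset ℕ)
    (hSig : Smin ⊆ Sig) (hSigP : ∀ q ∈ Sig, q.Prime) (hpSig : p ∈ Sig)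
    (_hord : (GaloisRepAdic.ofResidualGaloisRep ρbar).IsOrdinaryAt p)
    [NeZero (wilesLevel p .flat Smin Sig)]
    [Fact (HasIntegralStructure (wilesLevel p .flat Smin Sig) 2)]
    [NeZero (wilesLevel p .ord Smin Sig)]
    [Fact (HasIntegralStructure (wilesLevel p .ord Smin Sig) 2)]
    (θ : heckeAlgebra (wilesLevel p .flat Smin Sig) 2 (↑Sig : Set ℕ) →+* ResidueField 𝒪)
    [IsLocalRing (heckeLocal (wilesLevel p .flat Smin Sig) (↑Sig : Set ℕ) 𝒪 θ)]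
    [IsNoetherianRing (heckeLocal (wilesLevel p .flat Smin Sig) (↑Sig : Set ℕ) 𝒪 θ)]
    [IsAdicComplete (maximalIdeal (heckeLocal (wilesLevel p .flat Smin Sig) (↑Sig : Set ℕ) 𝒪 θ))
      (heckeLocal (wilesLevel p .flat Smin Sig) (↑Sig : Set ℕ) 𝒪 θ)]
    [IsLocalHom (algebraMap 𝒪 (heckeLocal (wilesLevel p .flat Smin Sig) (↑Sig : Set ℕ) 𝒪 θ))]
    [Module.Finite 𝒪 (heckeLocal (wilesLevel p .flat Smin Sig) (↑Sig : Set ℕ) 𝒪 θ)]
    [Module.Free 𝒪 (heckeLocal (wilesLevel p .flat Smin Sig) (↑Sig : Set ℕ) 𝒪 θ)]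
    (H : HeckeGaloisRepDatum (wilesLevel p .flat Smin Sig) (↑Sig : Set ℕ) 𝒪 θ
      (heckeLocal (wilesLevel p .flat Smin Sig) (↑Sig : Set ℕ) 𝒪 θ))
    (_hπ : H.π = heckeLocal.π (wilesLevel p .flat Smin Sig) (↑Sig : Set ℕ) 𝒪 θ)
    (_hres : H.ρ.residual.IsEquiv (ρbar.baseChangeAlong (ResidueField.map (algebraMap 𝒪
      (heckeLocal (wilesLevel p .flat Smin Sig) (↑Sig : Set ℕ) 𝒪 θ)))))
    (_hcond : sigmaCond 𝒪 p .flat Smin Sig H.ρ)
    (π : heckeLocal (wilesLevel p .flat Smin Sig) (↑Sig : Set ℕ) 𝒪 θ →ₐ[𝒪] 𝒪)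
    (hπloc : IsLocalHom
      (π : heckeLocal (wilesLevel p .flat Smin Sig) (↑Sig : Set ℕ) 𝒪 θ →+* 𝒪))
    (_hfin : Finite (NC.Cot π))
    (_hnum : Nat.card (NC.Cot π) = Nat.card (𝒪 ⧸ NC.congIdeal π))
    (α : 𝒪)
    (_hα : UnrFrobAt (H.ρ.baseChangeAlong
      (π : heckeLocal (wilesLevel p .flat Smin Sig) (↑Sig : Set ℕ) 𝒪 θ →+* 𝒪) hπloc) p α),
    α ^ 2 ≠ 1 ∧
      Nat.card (𝒪 ⧸ NC.congIdeal π) * Nat.card (𝒪 ⧸ Ideal.span {α ^ 2 - 1}) ≤
        Nat.card (𝒪 ⧸ NC.congIdeal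
          (π.comp (resLocal (levelPair_flat_ord p hSig hSigP hpSig) 𝒪 θ)))

end Fermat.Agent.S59.NMP
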