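import Fermat.Agent.S59.Arch.GluePT

/-!
# Row S59, cells NMP / NM — the Galois square (helper583)

Pure deformation theory, generic in the two deformation conditions `𝒟` (small) and `𝒟'` (big):

                 φ'
        R' ------------> T'
        |                |
      β |                | res
        v        φ       v
        R  ------------> T

* `exists_square` : if the universal deformation of type `𝒟` is of type `𝒟'`, the representation
  over `T` is of type `𝒟'` and `ρ_{T'} ⊗_res T ≅ ρ_T`, then there is a unique `β : R' → R` with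
  `ρ_{R'} ⊗_β R ≅ ρ_R`, and the square commutes.
* `compatible_unique`, `surjective_of_compatible` : every compatible `φ' : R' → T'` is the
  surjection of the frozen S54.
* `cot_comp_eq` : `Cot (π' ∘ φ') = Cot ((π ∘ φ) ∘ β)` for `π' = π ∘ res`.

Used by `Fermat.Agent.S59.NMP.nonMinP_of` (flat `→` ordinary); usable verbatim for the cell NM.
-/

set_option autoImplicit false

open IsLocalRing

namespace Fermat.Agent.S59.NMP

open Fermat.Agent.S59.Arch Fermat.Agent.S53.H113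

section Square

variable {𝒪 : Type} [CommRing 𝒪] [IsDomain 𝒪] [IsDiscreteValuationRing 𝒪]
  [IsAdicComplete (maximalIdeal 𝒪) 𝒪]
  {ρbar : ResidualGaloisRep (ResidueField 𝒪)}
  {𝒟 𝒟' : ∀ ⦃A : Type⦄ [CommRing A] [IsLocalRing A] [Algebra 𝒪 A], GaloisRepAdic A → Prop}

/-- Two compatible maps from a universal deformation ring are equal. -/
theorem compatible_unique (D : GaloisRep.DeformationRingData 𝒪 ρbar 𝒟)
    {T : Type} [CommRing T] [IsLocalRing T] [IsNoetherianRing T]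
    [IsAdicComplete (maximalIdeal T) T] [Algebra 𝒪 T] [IsLocalHom (algebraMap 𝒪 T)]
    (hTsurj : Function.Surjective (residue T ∘ algebraMap 𝒪 T))
    (ρT : GaloisRepAdic T) (hT𝒟 : 𝒟 ρT)
    (hTres : ρT.residual.IsEquiv (ρbar.baseChangeAlong (ResidueField.map (algebraMap 𝒪 T))))
    (φ₁ φ₂ : D.R →ₐ[𝒪] T)
    (h₁ : ∃ hφ : IsLocalHom (φ₁ : D.R →+* T), (D.ρ.baseChangeAlong (φ₁ : D.R →+* T) hφ).IsEquiv ρT)
    (h₂ : ∃ hφ : IsLocalHom (φ₂ : D.R →+* T),
      (D.ρ.baseChangeAlong (φ₂ : D.R →+* T) hφ).IsEquiv ρT) :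
    φ₁ = φ₂ :=
  (D.universal T hTsurj ρT hT𝒟 hTres).unique h₁ h₂

/-- **The Galois square.** -/
theorem exists_square (D : GaloisRep.DeformationRingData 𝒪 ρbar 𝒟)
    (D' : GaloisRep.DeformationRingData 𝒪 ρbar 𝒟') (hD𝒟' : 𝒟' D.ρ)
    {T : Type} [CommRing T] [IsLocalRing T] [IsNoetherianRing T]
    [IsAdicComplete (maximalIdeal T) T] [Algebra 𝒪 T] [IsLocalHom (algebraMap 𝒪 T)]
    {T' : Type} [CommRing T'] [IsLocalRing T'] [Algebra 𝒪 T']
    (hTsurj : Function.Surjective (residue T ∘ algebraMap 𝒪 T))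
    (ρT : GaloisRepAdic T) (ρT' : GaloisRepAdic T') (hT𝒟' : 𝒟' ρT)
    (hTres : ρT.residual.IsEquiv (ρbar.baseChangeAlong (ResidueField.map (algebraMap 𝒪 T))))
    (res : T' →ₐ[𝒪] T) (hres : IsLocalHom (res : T' →+* T))
    (hcompat : (ρT'.baseChangeAlong (res : T' →+* T) hres).IsEquiv ρT)
    (φ : D.R →ₐ[𝒪] T) (hφ : IsLocalHom (φ : D.R →+* T))
    (hφe : (D.ρ.baseChangeAlong (φ : D.R →+* T) hφ).IsEquiv ρT)
    (φ' : D'.R →ₐ[𝒪] T') (hφ' : IsLocalHom (φ' : D'.R →+* T'))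
    (hφ'e : (D'.ρ.baseChangeAlong (φ' : D'.R →+* T') hφ').IsEquiv ρT') :
    ∃ (β : D'.R →ₐ[𝒪] D.R) (hβ : IsLocalHom (β : D'.R →+* D.R)),
      (D'.ρ.baseChangeAlong (β : D'.R →+* D.R) hβ).IsEquiv D.ρ ∧ res.comp φ' = φ.comp β := by
  obtain ⟨β, ⟨hβ, hβe⟩, -⟩ := D'.universal D.R D.residue_surjective D.ρ hD𝒟' D.residual_isEquiv
  refine ⟨β, hβ, hβe, ?_⟩
  -- both composites are compatible maps `R' → T`
  have hloc₁ : IsLocalHom ((res.comp φ' : D'.R →ₐ[𝒪] T) : D'.R →+* T) := by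
    constructor
    intro a ha
    exact hφ'.map_nonunit a (hres.map_nonunit (φ' a) ha)
  have hloc₂ : IsLocalHom ((φ.comp β : D'.R →ₐ[𝒪] T) : D'.R →+* T) := by
    constructor
    intro a ha
    exact hβ.map_nonunit a (hφ.map_nonunit (β a) ha)
  have e₁ : (D'.ρ.baseChangeAlong ((res.comp φ' : D'.R →ₐ[𝒪] T) : D'.R →+* T) hloc₁).IsEquiv ρT := by
    have h1 := baseChangeAlong_comp_isEquiv' (φ' : D'.R →+* T') hφ' (res : T' →+* T) hres
      ((res.comp φ' : D'.R →ₐ[𝒪] T) : D'.R →+* T) hloc₁ rfl D'.ρ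
    have h2 := isEquiv_baseChangeAlong (res : T' →+* T) hres hφ'e
    exact isEquiv_trans (isEquiv_trans (isEquiv_symm h1) h2) hcompat
  have e₂ : (D'.ρ.baseChangeAlong ((φ.comp β : D'.R →ₐ[𝒪] T) : D'.R →+* T) hloc₂).IsEquiv ρT := by
    have h1 := baseChangeAlong_comp_isEquiv' (β : D'.R →+* D.R) hβ (φ : D.R →+* T) hφ
      ((φ.comp β : D'.R →ₐ[𝒪] T) : D'.R →+* T) hloc₂ rfl D'.ρ
    have h2 := isEquiv_baseChangeAlong (φ : D.R →+* T) hφ hβe
    exact isEquiv_trans (isEquiv_trans (isEquiv_symm h1) h2) hφe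
  exact compatible_unique D' hTsurj ρT hT𝒟' hTres _ _ ⟨hloc₁, e₁⟩ ⟨hloc₂, e₂⟩

/-- Every compatible map `R → T` to the ring of a Hecke–Galois datum is surjective (frozen S54 +
uniqueness). -/
theorem surjective_of_compatible (h54 : S54Statement)
    (D : GaloisRep.DeformationRingData 𝒪 ρbar 𝒟) {N : ℕ} [NeZero N] {S : Set ℕ}
    {θ : CuspForm.heckeAlgebra N 2 S →+* ResidueField 𝒪}
    {T : Type} [CommRing T] [IsLocalRing T] [IsNoetherianRing T]
    [IsAdicComplete (maximalIdeal T) T] [Algebra 𝒪 T]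
    [IsLocalHom (algebraMap 𝒪 T)] [Module.Finite 𝒪 T] [Module.Free 𝒪 T]
    (H : CuspForm.HeckeGaloisRepDatum N S 𝒪 θ T)
    (hS : ∀ q : ℕ, q.Prime → q ∣ N → q ∈ S) (h𝒟 : 𝒟 H.ρ)
    (hres : H.ρ.residual.IsEquiv
      (ρbar.baseChangeAlong (ResidueField.map (algebraMap 𝒪 T))))
    (φ : D.R →ₐ[𝒪] T)
    (hφ : ∃ hφ : IsLocalHom (φ : D.R →+* T), (D.ρ.baseChangeAlong (φ : D.R →+* T) hφ).IsEquiv H.ρ) :
    Function.Surjective φ := by
  obtain ⟨ψ, hψs, hψ⟩ := h54 D H hS h𝒟 hres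
  have : φ = ψ := compatible_unique D H.residue_surjective H.ρ h𝒟 hres φ ψ hφ hψ
  rw [this]
  exact hψs

end Square

end Fermat.Agent.S59.NMP
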