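import Fermat.Agent.S59.NMP.Spec
import Fermat.Agent.S59.Arch.SpecPlus

/-!
# Row S59, cell NMP — `Plus` form of the interface (sub-architect helper583, board v3)

Target (architect's ruling v5, `Arch/SpecPlus.lean`): `Arch.NonMinPPlusHStatement`

    RTIsoPlus .flat Smin Σ (eig χ)  →  RTIso .ord Smin Σ       (+ `CurveCase`, `ρ̄` flat and ordinary).

The Galois-side leaves `SelStatement`, `OrdDatumStatement` of `NMP/Spec.lean` are unchanged.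
The Hecke side is

* `EtaPStatement` (ETA-P): `η_T(π) = targetIdeal` (the invariant of `RTIsoPlus`) implies
  `α² ≠ 1` and `#(𝒪/η_T(π)) · #(𝒪/(α² − 1)) ≤ #(𝒪/η_{T'}(π ∘ res))`,

and ETA-P follows (`NMP/GlueP.lean`, `etaP_of_leaves`) from the leaves

* `NM.EtaOfBoundStatement`  (ETAB, leaf of cell NM, used at the level `N p`);
* `BettiTargetStatement`    (BB): the Betti bound `BettiBound N_Σ Σ a targetIdeal` of the flat
  level (the induction of cell NM: base + `NM.BoundStepStatement`);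
* `BoundStepPStatement`     (STEP-P): `BettiBound N S a J ⇒ BettiBound (N p) S a ((a_p² − (p+1)²) J)`
  (Ihara's lemma at `p`, the Gram matrix `[[p+1, T_p], [T_p, p+1]]`, old classes at `p`);
* `LgcStatement`            (LGC): `α · T_p x = (α² + p) x` on the eigenclasses of level `N`
  (Eichler–Shimura at `p`: `a_p = α + p/α`, `α` the unramified Frobenius eigenvalue of `ρ_π`).
-/

set_option autoImplicit false

open Polynomial IsLocalRing CongruenceSubgroup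
open scoped MatrixGroups

namespace Fermat.Agent.S59.NMP

open CuspForm Fermat.Agent.S59.Arch Fermat.Agent.S59.H765 Fermat.Agent.S41.Spec
  Fermat.Agent.S29.H642

/-- **ETA-P** (the Hecke step at `p`, `Plus` form).  In the situation of DATUM, let `π` be the
`𝒪`-point of `T` of `RTIsoPlus .flat` (eigenvalues `eig χ`, `η_T(π) = δ₀ ∏ c_q`) and `α` the
unramified Frobenius eigenvalue of `ρ_π` at `p`.  Then `α² ≠ 1` and
`#(𝒪/η_T(π)) · #(𝒪/(α² − 1)) ≤ #(𝒪/η_{T'}(π ∘ res))`. -/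
def EtaPStatement : Prop :=
  ∀ (p : ℕ) [Fact p.Prime]
    (𝒪 : Type) [CommRing 𝒪] [IsDomain 𝒪] [IsDiscreteValuationRing 𝒪]
    [IsAdicComplete (maximalIdeal 𝒪) 𝒪] [Finite (ResidueField 𝒪)] [CharZero 𝒪]
    (ρbar : ResidualGaloisRep (ResidueField 𝒪)) (Smin : Finset ℕ)
    (_h : ResidualHyp p 𝒪 ρbar Smin) (_hc : CurveCase p ρbar)
    (_hN : NeZero (wilesLevel p .flat Smin Smin))
    (χ : heckeAlgebra (wilesLevel p .flat Smin Smin) 2 (↑Smin : Set ℕ) →+* 𝒪)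
    (_hχ : G4.ResFrobCond ρbar ((residue 𝒪).comp χ))
    (Sig : Finset ℕ)
    (hSig : Smin ⊆ Sig) (hSigP : ∀ q ∈ Sig, q.Prime) (hpSig : p ∈ Sig)
    (_hflat : (GaloisRepAdic.ofResidualGaloisRep ρbar).IsFlatAt p)
    (_hord : (GaloisRepAdic.ofResidualGaloisRep ρbar).IsOrdinaryAt p)
    [NeZero (wilesLevel p .flat Smin Sig)]
    [Fact (HasIntegralStructure (wilesLevel p .flat Smin Sig) 2)]
    [NeZero (wilesLevel p .ord Smin Sig)]
    [Fact (HasIntegralStructure (wilesLevel p .ord Smin Sig) 2)]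
    (θ : heckeAlgebra (wilesLevel p .flat Smin Sig) 2 (↑Sig : Set ℕ) →+* ResidueField 𝒪)
    [IsLocalRing (heckeLocal (wilesLevel p .flat Smin Sig) (↑Sig : Set ℕ) 𝒪 θ)]
    [IsNoetherianRing (heckeLocal (wilesLevel p .flat Smin Sig) (↑Sig : Set ℕ) 𝒪 θ)]
    [IsAdicComplete (maximalIdeal (heckeLocal (wilesLevel p .flat Smin Sig) (↑Sig : Set ℕ) 𝒪 θ))
      (heckeLocal (wilesLevel p .flat Smin Sig) (↑Sig : Set ℕ) 𝒪 θ)]
    [IsLocalHom (algebraMap 𝒪 (heckeLocal (wilesLevel p .flat Smin Sig) (↑Sig : Set ℕ) 𝒪 θ))]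
    [Module.Finite 𝒪 (heckeLocal (wilesLevel p .flat Smin Sig) (↑Sig : Set ℕ) 𝒪 θ)]
    [Module.Free 𝒪 (heckeLocal (wilesLevel p .flat Smin Sig) (↑Sig : Set ℕ) 𝒪 θ)]
    [IsLocalRing (heckeLocal (wilesLevel p .ord Smin Sig) (↑Sig : Set ℕ) 𝒪
      (θ.comp (oldRestrict (levelPair_flat_ord p hSig hSigP hpSig))))]
    [IsNoetherianRing (heckeLocal (wilesLevel p .ord Smin Sig) (↑Sig : Set ℕ) 𝒪
      (θ.comp (oldRestrict (levelPair_flat_ord p hSig hSigP hpSig))))]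
    [IsAdicComplete
      (maximalIdeal (heckeLocal (wilesLevel p .ord Smin Sig) (↑Sig : Set ℕ) 𝒪
        (θ.comp (oldRestrict (levelPair_flat_ord p hSig hSigP hpSig)))))
      (heckeLocal (wilesLevel p .ord Smin Sig) (↑Sig : Set ℕ) 𝒪
        (θ.comp (oldRestrict (levelPair_flat_ord p hSig hSigP hpSig))))]
    [IsLocalHom (algebraMap 𝒪 (heckeLocal (wilesLevel p .ord Smin Sig) (↑Sig : Set ℕ) 𝒪
      (θ.comp (oldRestrict (levelPair_flat_ord p hSig hSigP hpSig)))))]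
    [Module.Finite 𝒪 (heckeLocal (wilesLevel p .ord Smin Sig) (↑Sig : Set ℕ) 𝒪
      (θ.comp (oldRestrict (levelPair_flat_ord p hSig hSigP hpSig))))]
    [Module.Free 𝒪 (heckeLocal (wilesLevel p .ord Smin Sig) (↑Sig : Set ℕ) 𝒪
      (θ.comp (oldRestrict (levelPair_flat_ord p hSig hSigP hpSig))))]
    (H : HeckeGaloisRepDatum (wilesLevel p .flat Smin Sig) (↑Sig : Set ℕ) 𝒪 θ
      (heckeLocal (wilesLevel p .flat Smin Sig) (↑Sig : Set ℕ) 𝒪 θ))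
    (_hπ : H.π = heckeLocal.π (wilesLevel p .flat Smin Sig) (↑Sig : Set ℕ) 𝒪 θ)
    (_hres : H.ρ.residual.IsEquiv (ρbar.baseChangeAlong (ResidueField.map (algebraMap 𝒪
      (heckeLocal (wilesLevel p .flat Smin Sig) (↑Sig : Set ℕ) 𝒪 θ)))))
    (_hcond : sigmaCond 𝒪 p .flat Smin Sig H.ρ)
    (π : heckeLocal (wilesLevel p .flat Smin Sig) (↑Sig : Set ℕ) 𝒪 θ →ₐ[𝒪] 𝒪)
    (hπloc : IsLocalHom
      (π : heckeLocal (wilesLevel p .flat Smin Sig) (↑Sig : Set ℕ) 𝒪 θ →+* 𝒪))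
    (_hπa : ∀ (l : ℕ) (hl : l.Prime) (hlN : ¬ l ∣ wilesLevel p .flat Smin Sig)
      (hlS : l ∉ (↑Sig : Set ℕ)),
      π (heckeLocal.π (wilesLevel p .flat Smin Sig) (↑Sig : Set ℕ) 𝒪 θ
        (heckeAlgebra.T hl hlN hlS)) = NM.eig χ l)
    (_hη : NC.congIdeal π = NM.targetIdeal p 𝒪 .flat Smin Sig (NM.eig χ))
    (α : 𝒪)
    (_hα : UnrFrobAt (H.ρ.baseChangeAlong
      (π : heckeLocal (wilesLevel p .flat Smin Sig) (↑Sig : Set ℕ) 𝒪 θ →+* 𝒪) hπloc) p α),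
    α ^ 2 ≠ 1 ∧
      Nat.card (𝒪 ⧸ NC.congIdeal π) * Nat.card (𝒪 ⧸ Ideal.span {α ^ 2 - 1}) ≤
        Nat.card (𝒪 ⧸ NC.congIdeal
          (π.comp (resLocal (levelPair_flat_ord p hSig hSigP hpSig) 𝒪 θ)))

/-! ## Leaves of ETA-P -/

/-- **BB** (the Betti bound of the flat level).  If the target ideal
`δ₀(χ) ∏_{q ∈ Σ ∖ Smin} (c_q)` is nonzero, there is a primitive `eig χ`-eigenclass of level `N_Σ`
all of whose Manin pairings with eigenclasses lie in the target ideal.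
[Induction on `Σ ∖ Smin`: base `δ₀ ≠ 0` (a primitive eigenclass of level `N_min` exists and
`B(x, y) ∈ δ₀` by definition), step `NM.BoundStepStatement`.  This is the first half of the proof
of `NM.EtaAbsStatement`.] -/
def BettiTargetStatement : Prop :=
  ∀ (p : ℕ) [Fact p.Prime]
    (𝒪 : Type) [CommRing 𝒪] [IsDomain 𝒪] [IsDiscreteValuationRing 𝒪]
    [IsAdicComplete (maximalIdeal 𝒪) 𝒪] [Finite (ResidueField 𝒪)] [CharZero 𝒪]
    (ρbar : ResidualGaloisRep (ResidueField 𝒪)) (Smin : Finset ℕ)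
    (_h : ResidualHyp p 𝒪 ρbar Smin) (_hc : CurveCase p ρbar)
    (_hN : NeZero (wilesLevel p .flat Smin Smin))
    (χ : heckeAlgebra (wilesLevel p .flat Smin Smin) 2 (↑Smin : Set ℕ) →+* 𝒪)
    (_hχ : G4.ResFrobCond ρbar ((residue 𝒪).comp χ))
    (Sig : Finset ℕ) (_hSig : Smin ⊆ Sig) (_hSigP : ∀ q ∈ Sig, q.Prime)
    (_hflat : (GaloisRepAdic.ofResidualGaloisRep ρbar).IsFlatAt p),
    NM.targetIdeal p 𝒪 .flat Smin Sig (NM.eig χ) ≠ ⊥ →
      NM.BettiBound (wilesLevel p .flat Smin Sig) Sig (NM.eig χ)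
        (NM.targetIdeal p 𝒪 .flat Smin Sig (NM.eig χ))

/-- **STEP-P** (the Betti step at `p`).  `N` prime to `p`, `S` = `{p}` ∪ the primes dividing `N`,
`a` a non-Eisenstein system (Frobenius traces of `ρ̄`), and `T_p = a_p` on the `a`-eigenclasses
of level `N`.  Then
`BettiBound N S a J ⇒ BettiBound (N p) S a ((a_p² − (p + 1)²) J)`.

[`x' := (p + 1) r₁ x − a_p r₂ x`.  Primitive: Ihara's lemma at `p` (`r₁ ⊕ r₂` is injective mod `ϖ`
on the eigenclasses; `S59.H341.ihara_eigen_torsion` in the curve case) and `p + 1` is a unit.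
An eigenclass `y` of level `N p` away from `S ∋ p` is OLD: `y = r₁ z₁ + r₂ z₂` over the fraction
field (the newform of `a` has level dividing `N`), `z_i` integral by Ihara; then
`B(x', y) = B(x, ((p + 1) t₁ − a_p t₂) y) = ((p + 1)² − a_p²) B(x, z₁)` by adjunction
(`NM.Adj2Statement`) and HK-3, HK-4 (`t₁ r₁ = p + 1 = t₂ r₂`, `t₁ r₂ = T_p = t₂ r₁`).] -/
def BoundStepPStatement : Prop :=
  ∀ (p : ℕ) [Fact p.Prime] (_hp2 : p ≠ 2)
    (𝒪 : Type) [CommRing 𝒪] [IsDomain 𝒪] [IsDiscreteValuationRing 𝒪]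
    [IsAdicComplete (maximalIdeal 𝒪) 𝒪] [Finite (ResidueField 𝒪)] [CharZero 𝒪]
    (_hp𝒪 : (p : 𝒪) ∈ maximalIdeal 𝒪)
    (ρbar : ResidualGaloisRep (ResidueField 𝒪)) (_habs : ρbar.IsAbsolutelyIrreducible)
    (_hsplit : ∀ σ : AlgebraicClosure ℚ ≃ₐ[ℚ] AlgebraicClosure ℚ,
      ∃ α β : ResidueField 𝒪, LinearMap.charpoly (ρbar.ρ σ) = (X - C α) * (X - C β))
    (_hc : CurveCase p ρbar)
    (N : ℕ) (_hN : N ≠ 0) (hpN : ¬ p ∣ N)
    (S : Finset ℕ) (_hpS : p ∈ S) (_hSP : ∀ r ∈ S, r.Prime)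
    (_hNS : ∀ r : ℕ, r.Prime → r ∣ N → r ∈ S) (_hSN : ∀ r ∈ S, r ≠ p → r ∣ N)
    (a : ℕ → 𝒪) (_ha : NM.IsFrobSystem ρbar S a) (ap : 𝒪)
    (_hap : ∀ x : Additive (Gamma0 N) →+ 𝒪, NM.IsEigenclass N S a x →
      heckeTransfer hpN x = ap • x)
    (J : Ideal 𝒪),
    NM.BettiBound N S a J →
      NM.BettiBound (N * p) S a (Ideal.span {ap ^ 2 - ((p : 𝒪) + 1) ^ 2} * J)

/-- **LGC** (Eichler–Shimura at `p`).  `H` the Hecke–Galois datum of the flat level `N` (prime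
to `p`), `π` an `𝒪`-point of `T` of eigenvalues `a`, `α` the unramified Frobenius eigenvalue of
`ρ_π = H.ρ ⊗_π 𝒪` at `p`.  Then `T_p` acts on every `a`-eigenclass `x` of level `N` by
`a_p = α + p/α`:   `α · T_p x = (α² + p) · x`.

[Reduction of `J₀(N)` at `p ∤ N`: on the special fibre `T_p = F + V`, `V = p/F`; the unramified
quotient of `ρ_π` is the image of the `π`-part of the `p`-adic Tate module in the Tate module of
the special fibre, on which `Frob_p = F`, hence `α² − a_p α + p = 0`.  Strong multiplicity one: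
`T_p` is a scalar on the eigenclasses.] -/
def LgcStatement : Prop :=
  ∀ (p : ℕ) [Fact p.Prime]
    (𝒪 : Type) [CommRing 𝒪] [IsDomain 𝒪] [IsDiscreteValuationRing 𝒪]
    [IsAdicComplete (maximalIdeal 𝒪) 𝒪] [Finite (ResidueField 𝒪)] [CharZero 𝒪]
    (ρbar : ResidualGaloisRep (ResidueField 𝒪)) (Smin : Finset ℕ)
    (_h : ResidualHyp p 𝒪 ρbar Smin) (_hc : CurveCase p ρbar)
    (Sig : Finset ℕ)
    (_hSig : Smin ⊆ Sig) (_hSigP : ∀ q ∈ Sig, q.Prime) (_hpSig : p ∈ Sig)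
    (_hflat : (GaloisRepAdic.ofResidualGaloisRep ρbar).IsFlatAt p)
    (_hord : (GaloisRepAdic.ofResidualGaloisRep ρbar).IsOrdinaryAt p)
    [NeZero (wilesLevel p .flat Smin Sig)]
    [Fact (HasIntegralStructure (wilesLevel p .flat Smin Sig) 2)]
    (θ : heckeAlgebra (wilesLevel p .flat Smin Sig) 2 (↑Sig : Set ℕ) →+* ResidueField 𝒪)
    [IsLocalRing (heckeLocal (wilesLevel p .flat Smin Sig) (↑Sig : Set ℕ) 𝒪 θ)]
    [IsNoetherianRing (heckeLocal (wilesLevel p .flat Smin Sig) (↑Sig : Set ℕ) 𝒪 θ)]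
    [IsAdicComplete (maximalIdeal (heckeLocal (wilesLevel p .flat Smin Sig) (↑Sig : Set ℕ) 𝒪 θ))
      (heckeLocal (wilesLevel p .flat Smin Sig) (↑Sig : Set ℕ) 𝒪 θ)]
    [IsLocalHom (algebraMap 𝒪 (heckeLocal (wilesLevel p .flat Smin Sig) (↑Sig : Set ℕ) 𝒪 θ))]
    [Module.Finite 𝒪 (heckeLocal (wilesLevel p .flat Smin Sig) (↑Sig : Set ℕ) 𝒪 θ)]
    [Module.Free 𝒪 (heckeLocal (wilesLevel p .flat Smin Sig) (↑Sig : Set ℕ) 𝒪 θ)]
    (H : HeckeGaloisRepDatum (wilesLevel p .flat Smin Sig) (↑Sig : Set ℕ) 𝒪 θ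
      (heckeLocal (wilesLevel p .flat Smin Sig) (↑Sig : Set ℕ) 𝒪 θ))
    (_hπ : H.π = heckeLocal.π (wilesLevel p .flat Smin Sig) (↑Sig : Set ℕ) 𝒪 θ)
    (_hres : H.ρ.residual.IsEquiv (ρbar.baseChangeAlong (ResidueField.map (algebraMap 𝒪
      (heckeLocal (wilesLevel p .flat Smin Sig) (↑Sig : Set ℕ) 𝒪 θ)))))
    (_hcond : sigmaCond 𝒪 p .flat Smin Sig H.ρ)
    (π : heckeLocal (wilesLevel p .flat Smin Sig) (↑Sig : Set ℕ) 𝒪 θ →ₐ[𝒪] 𝒪)
    (hπloc : IsLocalHom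
      (π : heckeLocal (wilesLevel p .flat Smin Sig) (↑Sig : Set ℕ) 𝒪 θ →+* 𝒪))
    (a : ℕ → 𝒪)
    (_hπa : ∀ (l : ℕ) (hl : l.Prime) (hlN : ¬ l ∣ wilesLevel p .flat Smin Sig)
      (hlS : l ∉ (↑Sig : Set ℕ)),
      π (heckeLocal.π (wilesLevel p .flat Smin Sig) (↑Sig : Set ℕ) 𝒪 θ
        (heckeAlgebra.T hl hlN hlS)) = a l)
    (α : 𝒪)
    (_hα : UnrFrobAt (H.ρ.baseChangeAlong
      (π : heckeLocal (wilesLevel p .flat Smin Sig) (↑Sig : Set ℕ) 𝒪 θ →+* 𝒪) hπloc) p α)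
    (hpN : ¬ p ∣ wilesLevel p .flat Smin Sig)
    (x : Additive (Gamma0 (wilesLevel p .flat Smin Sig)) →+ 𝒪),
    NM.IsEigenclass (wilesLevel p .flat Smin Sig) Sig a x →
      α • heckeTransfer hpN x = (α ^ 2 + (p : 𝒪)) • x

end Fermat.Agent.S59.NMP
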