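import Fermat.Agent.S59.NMP.SpecP
import Fermat.Agent.S59.Arch.WilesLevel
import Fermat.Agent.S59.H427.NCBridge
import Fermat.Agent.S59.H427.ReducedCot
import Fermat.Agent.S59.H427.TateFormula
import Fermat.Agent.S59.H360.NCFlat
import Fermat.Agent.S59.G4.H547.Red
import Fermat.Agent.Lib.Cheb.H643.FrobAt

/-!
# Row S59, cell NMP — ETA-P from its leaves (helper583)

`etaP_of_leaves : NM.EtaOfBoundStatement → BettiTargetStatement → BoundStepPStatement →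
LgcStatement → EtaPStatement`.
-/

set_option autoImplicit false

open Polynomial IsLocalRing CongruenceSubgroup
open scoped MatrixGroups

namespace Fermat.Agent.S59.NMP

open CuspForm Fermat.Agent.S59.Arch Fermat.Agent.S59.H765 Fermat.Agent.S41.Spec
  Fermat.Agent.S29.H642

/-- The unramified Frobenius eigenvalue is a unit. -/
theorem UnrFrobAt.isUnit {A : Type} [CommRing A] [IsLocalRing A] {ρ : GaloisRepAdic A} {p : ℕ}
    (hp : p.Prime) {α : A} (h : UnrFrobAt ρ p α) : IsUnit α := by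
  obtain ⟨P, hP, L, ⟨b, rfl⟩, hD, -, hF⟩ := h
  obtain ⟨σ, hσ⟩ := Fermat.Agent.Lib.Cheb.H643.exists_isFrobeniusAt p hp P hP
  have hσD : σ ∈ P.decompositionSubgroup ℚ := hσ.mem_decompositionSubgroup
  have hcoord : ∀ v ∈ Submodule.span A {b 0}, b.repr v 1 = 0 := by
    intro v hv
    obtain ⟨r, rfl⟩ := Submodule.mem_span_singleton.mp hv
    simp
  set w : ρ.V := ρ.ρ σ⁻¹ (b 1) with hw
  have hσw : ρ.ρ σ w = b 1 := by
    rw [hw, ← Module.End.mul_apply, ← map_mul, mul_inv_cancel, map_one, Module.End.one_apply]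
  -- `ρ σ w - α w ∈ L`
  have h1 := hcoord _ (hF σ hσ w)
  rw [hσw, map_sub, map_smul] at h1
  simp only [Module.Basis.repr_self, Finsupp.sub_apply, Finsupp.single_eq_same,
    Finsupp.smul_apply, smul_eq_mul] at h1
  exact IsUnit.of_mul_eq_one (b.repr w 1) (by rw [sub_eq_zero] at h1; exact h1.symm)

/-- `p ∤ N_Σ^{flat}`. -/
theorem not_dvd_wilesLevel_flat {p : ℕ} (hp : p.Prime) {Smin Sig : Finset ℕ}
    (hSigP : ∀ q ∈ Sig, q.Prime) (hSig : Smin ⊆ Sig) (hpS : p ∈ Smin) :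
    ¬ p ∣ wilesLevel p .flat Smin Sig := by
  classical
  intro hd
  rw [wilesLevel_eq] at hd
  simp only [pFactor, mul_one] at hd
  rcases (Nat.Prime.dvd_mul hp).mp hd with h1 | h2
  · obtain ⟨q, hq, hpq⟩ := (Prime.dvd_finsetProd_iff hp.prime _).mp h1
    have hqp : q.Prime := hSigP q (hSig (Finset.mem_of_mem_erase hq))
    have : p = q := (Nat.prime_dvd_prime_iff_eq hp hqp).mp hpq
    exact (Finset.ne_of_mem_erase hq) this.symm
  · obtain ⟨q, hq, hpq⟩ := (Prime.dvd_finsetProd_iff hp.prime _).mp h2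
    have hqp : q.Prime := hSigP q (Finset.mem_sdiff.mp hq).1
    have hpq' : p ∣ q := hp.dvd_of_dvd_pow hpq
    have : p = q := (Nat.prime_dvd_prime_iff_eq hp hqp).mp hpq'
    subst this
    exact (Finset.mem_sdiff.mp hq).2 hpS

/-- The primes of `Σ ∖ {p}` divide `N_Σ^{flat}`. -/
theorem dvd_wilesLevel_flat_of_mem {p : ℕ} {Smin Sig : Finset ℕ} (hSig : Smin ⊆ Sig)
    {r : ℕ} (hr : r ∈ Sig) (hrp : r ≠ p) : r ∣ wilesLevel p .flat Smin Sig := by
  classical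
  rw [wilesLevel_eq]
  simp only [pFactor, mul_one]
  by_cases h : r ∈ Smin
  · exact Dvd.dvd.mul_right
      (Finset.dvd_prod_of_mem (fun q => q) (Finset.mem_erase.mpr ⟨hrp, h⟩)) _
  · exact Dvd.dvd.mul_left
      ((dvd_pow_self r two_ne_zero).trans
        (Finset.dvd_prod_of_mem (fun q => q ^ 2) (Finset.mem_sdiff.mpr ⟨hr, h⟩))) _

/-- `N_Σ^{ord} = N_Σ^{flat} · p`. -/
theorem wilesLevel_ord_eq (p : ℕ) (Smin Sig : Finset ℕ) :
    wilesLevel p .ord Smin Sig = wilesLevel p .flat Smin Sig * p := by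
  rw [wilesLevel_eq, wilesLevel_eq]
  simp only [pFactor, mul_one]

/-- The eigenvalues of `χ` form a Frobenius system of `ρ̄` away from `Σ`. -/
theorem isFrobSystem_eig {p : ℕ} [Fact p.Prime]
    {𝒪 : Type} [CommRing 𝒪] [IsDomain 𝒪] [IsDiscreteValuationRing 𝒪]
    [IsAdicComplete (maximalIdeal 𝒪) 𝒪]
    {ρbar : ResidualGaloisRep (ResidueField 𝒪)} {Smin Sig : Finset ℕ}
    (hRH : ResidualHyp p 𝒪 ρbar Smin) (hSig : Smin ⊆ Sig)
    [NeZero (wilesLevel p .flat Smin Smin)]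
    (χ : heckeAlgebra (wilesLevel p .flat Smin Smin) 2 (↑Smin : Set ℕ) →+* 𝒪)
    (hχ : G4.ResFrobCond ρbar ((residue 𝒪).comp χ)) :
    NM.IsFrobSystem ρbar Sig (NM.eig χ) := by
  intro l hl hlS B hB σ hσ
  have hlSmin : l ∉ (↑Smin : Set ℕ) := fun h => hlS (hSig (Finset.mem_coe.mp h))
  have hlN : ¬ l ∣ wilesLevel p .flat Smin Smin := fun hd =>
    hlSmin (Finset.mem_coe.mpr
      (prime_dvd_wilesLevel p .flat (Finset.Subset.refl Smin) hRH.hSmin hRH.hpSmin hl hd))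
  rw [NM.eig_eq χ hl hlN hlSmin]
  exact hχ l hl hlN hlSmin B hB σ hσ

set_option maxHeartbeats 1600000 in
/-- **ETA-P from its leaves.** -/
theorem etaP_of_leaves (hETAB : NM.EtaOfBoundStatement) (hBB : BettiTargetStatement)
    (hSTEP : BoundStepPStatement) (hLGC : LgcStatement) : EtaPStatement := by
  intro p _ 𝒪 _ _ _ _ _ _ ρbar Smin hRH hc hNmin χ hχ Sig hSig hSigP hpSig hflat hord
    _ _ _ _ θ _ _ _ _ _ _ _ _ _ _ _ _ H hHπ hHres hHcond π hπloc hπa hη α hα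
  classical
  have hpp : p.Prime := Fact.out
  have hNS : ∀ q : ℕ, q.Prime → q ∣ wilesLevel p .flat Smin Sig → q ∈ (↑Sig : Set ℕ) :=
    fun q hq hd => Finset.mem_coe.mpr (prime_dvd_wilesLevel p .flat hSig hSigP hpSig hq hd)
  have hNS' : ∀ q : ℕ, q.Prime → q ∣ wilesLevel p .ord Smin Sig → q ∈ (↑Sig : Set ℕ) :=
    fun q hq hd => Finset.mem_coe.mpr (prime_dvd_wilesLevel p .ord hSig hSigP hpSig hq hd)
  have hpN : ¬ p ∣ wilesLevel p .flat Smin Sig :=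
    not_dvd_wilesLevel_flat hpp hSigP hSig hRH.hpSmin
  -- the two congruence ideals are nonzero
  have hred : IsReduced (heckeLocal (wilesLevel p .flat Smin Sig) (↑Sig : Set ℕ) 𝒪 θ) :=
    G4.H547.red _ _ hNS 𝒪 θ
  have hred' : IsReduced (heckeLocal (wilesLevel p .ord Smin Sig) (↑Sig : Set ℕ) 𝒪
      (θ.comp (oldRestrict (levelPair_flat_ord p hSig hSigP hpSig)))) :=
    G4.H547.red _ _ hNS' 𝒪 _
  have hηne : NC.congIdeal π ≠ ⊥ := Fermat.Agent.S59.H427.congIdeal_ne_bot_of_isReduced π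
  set π' : heckeLocal (wilesLevel p .ord Smin Sig) (↑Sig : Set ℕ) 𝒪
      (θ.comp (oldRestrict (levelPair_flat_ord p hSig hSigP hpSig))) →ₐ[𝒪] 𝒪 :=
    π.comp (resLocal (levelPair_flat_ord p hSig hSigP hpSig) 𝒪 θ) with hπ'
  have hη'ne : NC.congIdeal π' ≠ ⊥ := Fermat.Agent.S59.H427.congIdeal_ne_bot_of_isReduced π'
  -- `α` is a unit, `a_p := α⁻¹ (α² + p)`
  obtain ⟨u, hu⟩ := hα.isUnit hpp
  set ap : 𝒪 := (↑u⁻¹ : 𝒪) * (α ^ 2 + (p : 𝒪)) with hap
  have huα : (↑u⁻¹ : 𝒪) * α = 1 := by rw [← hu, Units.inv_mul]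
  have hTp : ∀ x : Additive (Gamma0 (wilesLevel p .flat Smin Sig)) →+ 𝒪,
      NM.IsEigenclass (wilesLevel p .flat Smin Sig) Sig (NM.eig χ) x →
        heckeTransfer hpN x = ap • x := by
    intro x hx
    have h1 := hLGC p 𝒪 ρbar Smin hRH hc Sig hSig hSigP hpSig hflat hord θ H hHπ hHres hHcond
      π hπloc (NM.eig χ) hπa α hα hpN x hx
    calc heckeTransfer hpN x = ((↑u⁻¹ : 𝒪) * α) • heckeTransfer hpN x := by
          rw [huα, one_smul]
      _ = (↑u⁻¹ : 𝒪) • (α • heckeTransfer hpN x) := by rw [mul_smul]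
      _ = (↑u⁻¹ : 𝒪) • ((α ^ 2 + (p : 𝒪)) • x) := by rw [h1]
      _ = ap • x := by rw [smul_smul]
  -- the Betti bound at the level `N p`
  have hJne : NM.targetIdeal p 𝒪 .flat Smin Sig (NM.eig χ) ≠ ⊥ := hη ▸ hηne
  have hbb := hBB p 𝒪 ρbar Smin hRH hc hNmin χ hχ Sig hSig hSigP hflat hJne
  have hfs : NM.IsFrobSystem ρbar Sig (NM.eig χ) := isFrobSystem_eig hRH hSig χ hχ
  have hstep := hSTEP p hRH.hp2 𝒪 hRH.hp𝒪 ρbar hRH.habs hRH.hsplit hc
    (wilesLevel p .flat Smin Sig) (NeZero.ne _) hpN Sig hpSig hSigP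
    (fun r hr hd => Finset.mem_coe.mp (hNS r hr hd))
    (fun r hr hrp => dvd_wilesLevel_flat_of_mem hSig hr hrp)
    (NM.eig χ) hfs ap hTp _ hbb
  rw [← wilesLevel_ord_eq p Smin Sig, ← hη] at hstep
  -- the eigenvalues of `π'`
  have hπ'a : ∀ (l : ℕ) (hl : l.Prime) (hlN : ¬ l ∣ wilesLevel p .ord Smin Sig)
      (hlS : l ∉ (↑Sig : Set ℕ)),
      π' (heckeLocal.π (wilesLevel p .ord Smin Sig) (↑Sig : Set ℕ) 𝒪
        (θ.comp (oldRestrict (levelPair_flat_ord p hSig hSigP hpSig)))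
        (heckeAlgebra.T hl hlN hlS)) = NM.eig χ l := by
    intro l hl hlN hlS
    have hlN0 : ¬ l ∣ wilesLevel p .flat Smin Sig := fun hd =>
      hlN ((wilesLevel_ord_eq p Smin Sig) ▸ Dvd.dvd.mul_right hd p)
    rw [hπ', AlgHom.comp_apply,
      resLocal_T (levelPair_flat_ord p hSig hSigP hpSig) 𝒪 θ hl hlN hlS hlN0 hlS]
    exact hπa l hl hlN0 hlS
  have hle : NC.congIdeal π' ≤
      Ideal.span {ap ^ 2 - ((p : 𝒪) + 1) ^ 2} * NC.congIdeal π :=
    hETAB p 𝒪 hRH.hp𝒪 (wilesLevel p .ord Smin Sig) Sig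
      (fun r hr hd => Finset.mem_coe.mp (hNS' r hr hd)) _ π' (NM.eig χ) hπ'a _ hstep
  -- numerics
  have hα2 : IsUnit (α ^ 2 - (p : 𝒪) ^ 2) := by
    rw [← IsLocalRing.notMem_maximalIdeal]
    intro hmem
    have h2 : α ^ 2 ∈ maximalIdeal 𝒪 := by
      have := Ideal.add_mem _ hmem (Ideal.pow_mem_of_mem _ hRH.hp𝒪 2 two_pos)
      rwa [sub_add_cancel] at this
    exact (IsLocalRing.notMem_maximalIdeal.mpr ((hu ▸ u.isUnit : IsUnit α).pow 2)) h2
  have hc : ap ^ 2 - ((p : 𝒪) + 1) ^ 2 =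
      ((↑u⁻¹ : 𝒪) ^ 2 * (α ^ 2 - (p : 𝒪) ^ 2)) * (α ^ 2 - 1) := by
    have h1 : ap ^ 2 - ((p : 𝒪) + 1) ^ 2 =
        ap ^ 2 - ((p : 𝒪) + 1) ^ 2 * ((↑u⁻¹ : 𝒪) * α) ^ 2 := by
      rw [huα, one_pow, mul_one]
    rw [h1, hap]
    ring
  have hunit : IsUnit ((↑u⁻¹ : 𝒪) ^ 2 * (α ^ 2 - (p : 𝒪) ^ 2)) :=
    ((u⁻¹).isUnit.pow 2).mul hα2
  have hspan : Ideal.span {ap ^ 2 - ((p : 𝒪) + 1) ^ 2} = Ideal.span {α ^ 2 - 1} := by
    rw [hc]
    exact Ideal.span_singleton_mul_left_unit hunit _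
  rw [hspan] at hle
  obtain ⟨e, he⟩ : ∃ e : 𝒪, NC.congIdeal π = Ideal.span {e} :=
    ⟨_, (IsPrincipalIdealRing.principal (NC.congIdeal π)).span_singleton_generator.symm⟩
  obtain ⟨d, hd⟩ : ∃ d : 𝒪, NC.congIdeal π' = Ideal.span {d} :=
    ⟨_, (IsPrincipalIdealRing.principal (NC.congIdeal π')).span_singleton_generator.symm⟩
  have he0 : e ≠ 0 := by
    rintro rfl
    exact hηne (he.trans (Ideal.span_singleton_eq_bot.mpr rfl))
  have hd0 : d ≠ 0 := by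
    rintro rfl
    exact hη'ne (hd.trans (Ideal.span_singleton_eq_bot.mpr rfl))
  rw [he, Ideal.span_singleton_mul_span_singleton] at hle
  have hα1 : α ^ 2 - 1 ≠ 0 := by
    intro h0
    rw [h0, zero_mul, hd, Ideal.span_singleton_le_span_singleton] at hle
    exact hd0 (zero_dvd_iff.mp hle)
  refine ⟨fun h => hα1 (by rw [h, sub_self]), ?_⟩
  rw [he, mul_comm, ← Fermat.Agent.S59.H360.card_quot_span_mul _ _ hα1]
  have : Finite (𝒪 ⧸ NC.congIdeal π') := by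
    rw [hd]
    exact Fermat.Agent.S59.H427.finite_quotient_span_singleton_of_ne_zero hd0
  exact Nat.card_le_card_of_surjective _ (Ideal.Quotient.factor_surjective hle)

end Fermat.Agent.S59.NMP
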