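import Fermat.Agent.S59.NMP.GlueP
import Fermat.Agent.S59.NMP.EtaP

/-!
# Row S59, cell NMP — the cell from its leaves (helper583)

`nonMinPPlusH_of_leaves` : the architect's target `Arch.NonMinPPlusHStatement` (board v5) from

* the inputs `S53Statement`, `S54Statement`, `SigmaCondStatement` (all on main);
* the Galois-side leaves DATUM (`OrdDatumStatement`), SEL (`SelStatement`);
* the Hecke-side leaves ETAB (`NM.EtaOfBoundStatement`, leaf of cell NM), BB
  (`BettiTargetStatement`), STEP-P (`BoundStepPStatement`), LGC (`LgcStatement`).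
-/

set_option autoImplicit false

namespace Fermat.Agent.S59.NMP

open Fermat.Agent.S59.Arch

/-- **The cell NMP from its leaves.** -/
theorem nonMinPPlusH_of_leaves (h53 : S53Statement) (h54 : S54Statement)
    (hCOND : SigmaCondStatement) (hDAT : OrdDatumStatement) (hSEL : SelStatement)
    (hETAB : NM.EtaOfBoundStatement) (hBB : BettiTargetStatement)
    (hSTEP : BoundStepPStatement) (hLGC : LgcStatement) : NonMinPPlusHStatement :=
  nonMinPPlusH_of h53 h54 hCOND hDAT hSEL (etaP_of_leaves hETAB hBB hSTEP hLGC)

end Fermat.Agent.S59.NMP
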