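import Fermat.Agent.S59.NMP.Spec
import Fermat.Agent.S59.NMP.Square
import Fermat.Agent.S59.H427.NCBridge
import Fermat.Agent.S59.H659.Ord
import Fermat.Agent.Lib.Cheb.H956.Consumers

/-!
# Row S59, cell NMP — the glue (helper583)

`nonMinP_of : S53 → S54 → SigmaCond → RED-T → DATUM → SEL → ETA → Arch.NonMinPStatement`.

Also (reusable): `baseChangeAlong_id_isEquiv`, `UnrFrobAt.of_isEquiv`, `exists_unrFrobAt`
(an ordinary representation has an unramified Frobenius eigenvalue), and the Galois half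
`galois_half` of the step, which does not use the Hecke-side numerics (so that it serves the
module form `NMP⁺` as well).
-/

set_option autoImplicit false

open Polynomial IsLocalRing

namespace Fermat.Agent.S59.NMP

open CuspForm Fermat.Agent.S59.Arch Fermat.Agent.S59.H765 Fermat.Agent.S53.H113
open Fermat.Agent.S53

/-! ### Small dictionary lemmas -/

section Dict

variable {A : Type} [CommRing A] [IsLocalRing A]

/-- Base change along the identity. -/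
theorem baseChangeAlong_id_isEquiv (ρ : GaloisRepAdic A) (h : IsLocalHom (RingHom.id A)) :
    (ρ.baseChangeAlong (RingHom.id A) h).IsEquiv ρ := by
  obtain ⟨r, hr, he⟩ := exists_toAdic ρ
  have h1 := isEquiv_baseChangeAlong (RingHom.id A) h he
  have h2 := baseChangeAlong_toAdic (RingHom.id A) h r hr
  have h3 : ∀ (r' : Fermat.Agent.S53.GQ →* M2 A) (_ : r' = r) (hr' : MatCont r'),
      (toAdic r' hr').IsEquiv (toAdic r hr) := by
    rintro _ rfl _
    exact isEquiv_refl _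
  exact isEquiv_trans (isEquiv_trans (isEquiv_trans h1 h2) (h3 _ (mapRep_id r) _))
    (isEquiv_symm he)

/-- Base change along a bijective map can be undone. -/
theorem isEquiv_of_baseChangeAlong_bijective {B : Type} [CommRing B] [IsLocalRing B]
    (φ : A →+* B) (hφ : IsLocalHom φ) (ψ : B →+* A) (hψ : IsLocalHom ψ)
    (hψφ : ψ.comp φ = RingHom.id A) (ρ : GaloisRepAdic A) :
    ((ρ.baseChangeAlong φ hφ).baseChangeAlong ψ hψ).IsEquiv ρ := by
  have hid : IsLocalHom (RingHom.id A) := ⟨fun _ ha => ha⟩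
  exact isEquiv_trans (baseChangeAlong_comp_isEquiv' φ hφ ψ hψ (RingHom.id A) hid hψφ ρ)
    (baseChangeAlong_id_isEquiv ρ hid)

/-- `UnrFrobAt` is invariant under equivalence. -/
theorem UnrFrobAt.of_isEquiv {ρ₁ ρ₂ : GaloisRepAdic A} (he : ρ₁.IsEquiv ρ₂) {p : ℕ} {α : A}
    (h : UnrFrobAt ρ₁ p α) : UnrFrobAt ρ₂ p α := by
  obtain ⟨e⟩ := he
  obtain ⟨P, hP, L, ⟨b, rfl⟩, hD, hI, hF⟩ := h
  have hmem : ∀ {u : ρ₁.V}, u ∈ Submodule.span A {b 0} →
      e.toLinearEquiv u ∈ Submodule.span A {e.toLinearEquiv (b 0)} := by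
    intro u hu
    obtain ⟨a, rfl⟩ := Submodule.mem_span_singleton.mp hu
    rw [map_smul]
    exact Submodule.smul_mem _ _ (Submodule.mem_span_singleton_self _)
  refine ⟨P, hP, Submodule.span A {e.toLinearEquiv (b 0)}, ⟨b.map e.toLinearEquiv, ?_⟩, ?_, ?_, ?_⟩
  · rw [Module.Basis.map_apply]
  · intro σ hσ v hv
    obtain ⟨a, rfl⟩ := Submodule.mem_span_singleton.mp hv
    rw [map_smul, ← e.map_apply]
    exact Submodule.smul_mem _ _ (hmem (hD σ hσ _ (Submodule.mem_span_singleton_self _)))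
  · intro σ hσ w
    have := hmem (hI σ hσ (e.toLinearEquiv.symm w))
    rwa [map_sub, e.map_apply, LinearEquiv.apply_symm_apply] at this
  · intro σ hσ w
    have := hmem (hF σ hσ (e.toLinearEquiv.symm w))
    rwa [map_sub, e.map_apply, map_smul, LinearEquiv.apply_symm_apply] at this

/-- An ordinary representation has an unramified Frobenius eigenvalue at `p`. -/
theorem exists_unrFrobAt {ρ : GaloisRepAdic A} {p : ℕ} (hp : p.Prime) (h : ρ.IsOrdinaryAt p) :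
    ∃ α : A, UnrFrobAt ρ p α := by
  obtain ⟨P, τ, hP, hτ⟩ := Fermat.Agent.S54.exists_frobenius p hp
  obtain ⟨L, ⟨b, rfl⟩, hD, hI⟩ := h P hP
  have hτD : τ ∈ P.decompositionSubgroup ℚ := hτ.mem_decompositionSubgroup
  -- the scalar by which `τ` acts on `V/L`
  set α : A := b.repr (ρ.ρ τ (b 1)) 1 with hα
  have hb0 : b 0 ∈ Submodule.span A {b 0} := Submodule.mem_span_singleton_self _
  have key : ∀ v : ρ.V, ρ.ρ τ v - α • v ∈ Submodule.span A {b 0} := by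
    intro v
    have hv : v = b.repr v 0 • b 0 + b.repr v 1 • b 1 := by
      conv_lhs => rw [← b.sum_repr v]
      rw [Fin.sum_univ_two]
    have h1 : ρ.ρ τ (b 1) - α • b 1 ∈ Submodule.span A {b 0} := by
      have h2 : ρ.ρ τ (b 1) = b.repr (ρ.ρ τ (b 1)) 0 • b 0 + α • b 1 := by
        conv_lhs => rw [← b.sum_repr (ρ.ρ τ (b 1))]
        rw [Fin.sum_univ_two]
      rw [h2, add_sub_cancel_right]
      exact Submodule.smul_mem _ _ hb0
    have h0 : ρ.ρ τ (b 0) - α • b 0 ∈ Submodule.span A {b 0} :=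
      Submodule.sub_mem _ (hD τ hτD _ hb0) (Submodule.smul_mem _ _ hb0)
    have : ρ.ρ τ v - α • v =
        b.repr v 0 • (ρ.ρ τ (b 0) - α • b 0) + b.repr v 1 • (ρ.ρ τ (b 1) - α • b 1) := by
      conv_lhs => rw [hv]
      simp only [map_add, map_smul, smul_add, smul_sub, smul_smul]
      rw [mul_comm α (b.repr v 0), mul_comm α (b.repr v 1)]
      abel
    rw [this]
    exact Submodule.add_mem _ (Submodule.smul_mem _ _ h0) (Submodule.smul_mem _ _ h1)
  refine ⟨α, P, hP, Submodule.span A {b 0}, ⟨b, rfl⟩, hD, hI, ?_⟩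
  intro σ hσ v
  have hι := Fermat.Agent.Lib.Cheb.H956.mul_inv_mem_inertiaSubgroupIn hτ hσ
  have h1 := hI (σ * τ⁻¹) hι (ρ.ρ τ v)
  have h2 : ρ.ρ (σ * τ⁻¹) (ρ.ρ τ v) = ρ.ρ σ v := by
    rw [← Module.End.mul_apply, ← map_mul, inv_mul_cancel_right]
  rw [h2] at h1
  have := Submodule.add_mem _ h1 (key v)
  rwa [sub_add_sub_cancel] at this

end Dict

end Fermat.Agent.S59.NMP

namespace Fermat.Agent.S59.NMP

open CuspForm Fermat.Agent.S59.Arch Fermat.Agent.S59.H765 Fermat.Agent.S53.H113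
open Fermat.Agent.S53

/-- `sigmaCond .flat` + ordinary `⇒` `sigmaCond .ord`. -/
theorem sigmaCond_ord_of_flat {𝒪 : Type} [CommRing 𝒪] {p : ℕ} {Smin Sig : Finset ℕ}
    {A : Type} [CommRing A] [IsLocalRing A] [Algebra 𝒪 A] {ρ : GaloisRepAdic A}
    (h : sigmaCond 𝒪 p .flat Smin Sig ρ) (hord : ρ.IsOrdinaryAt p) :
    sigmaCond 𝒪 p .ord Smin Sig ρ :=
  ⟨⟨h.1.1, hord, h.1.2.2⟩, h.2⟩

/-- **GLUE of the cell NMP** (ring form): the frozen `Arch.NonMinPStatement` from the leaves. -/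
theorem nonMinP_of (h53 : S53Statement) (h54 : S54Statement) (hCOND : SigmaCondStatement)
    (hREDT : RedTStatement) (hDAT : OrdDatumStatement) (hSEL : SelStatement)
    (hETA : EtaStatement) : NonMinPStatement := by
  intro p _ 𝒪 _ _ _ _ _ _ ρbar Smin hRH Sig hSig hSigP hord hRT
  classical
  have hpp : p.Prime := Fact.out
  have hpSig : p ∈ Sig := hSig hRH.hpSmin
  obtain ⟨hN, hint, θ, i1, i2, i3, i4, i5, i6, H, hHπ, hHres, hHcond, hiso⟩ := hRT
  obtain ⟨hN', hint', j1, j2, j3, j4, j5, j6, H', hH'π, hH'res, hH'cond, hresloc, hcompat⟩ :=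
    hDAT p 𝒪 ρbar Smin hRH Sig hSig hSigP hpSig hord θ H hHπ hHres hHcond
  refine ⟨hN', hint', θ.comp (oldRestrict (levelPair_flat_ord p hSig hSigP hpSig)),
    j1, j2, j3, j4, j5, j6, H', hH'π, hH'res, hH'cond, ?_⟩
  intro D' φ' hφ'
  -- the flat deformation ring and `φ : R ≃ T`
  have hcfl := hCOND p hRH.hp2 𝒪 hRH.hp𝒪 .flat Smin Sig
  have hbar : sigmaCond 𝒪 p .flat Smin Sig (GaloisRepAdic.ofResidualGaloisRep ρbar) :=
    hREDT 𝒪 _ hcfl.1 _ H.residue_surjective H.ρ ρbar hHres hHcond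
  obtain ⟨D⟩ := h53 𝒪 ρbar _ hRH.habs hcfl.1 hbar (hcfl.2 ρbar)
  have hNS : ∀ q : ℕ, q.Prime → q ∣ wilesLevel p .flat Smin Sig → q ∈ (↑Sig : Set ℕ) :=
    fun q hq hd => Finset.mem_coe.mpr (prime_dvd_wilesLevel p .flat hSig hSigP hpSig hq hd)
  have hNS' : ∀ q : ℕ, q.Prime → q ∣ wilesLevel p .ord Smin Sig → q ∈ (↑Sig : Set ℕ) :=
    fun q hq hd => Finset.mem_coe.mpr (prime_dvd_wilesLevel p .ord hSig hSigP hpSig hq hd)
  obtain ⟨φ, hφs, hφ, hφe⟩ := h54 D H hNS hHcond hHres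
  obtain ⟨hbij, π, hfin, hnum⟩ := hiso D φ ⟨hφ, hφe⟩
  -- ordinarity at the flat level
  have hHord : H.ρ.IsOrdinaryAt p :=
    Fermat.Agent.S59.H659.isOrdinaryAt_of_isEquiv hcompat (Fermat.Agent.S59.H659.isOrdinaryAt_baseChangeAlong _ hresloc hH'cond.1.2.1)
  have hHcond' : sigmaCond 𝒪 p .ord Smin Sig H.ρ := sigmaCond_ord_of_flat hHcond hHord
  let e : D.R ≃ₐ[𝒪] heckeLocal (wilesLevel p .flat Smin Sig) (↑Sig : Set ℕ) 𝒪 θ :=
    AlgEquiv.ofBijective φ hbij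
  have hψ : IsLocalHom ((e.symm : heckeLocal (wilesLevel p .flat Smin Sig) (↑Sig : Set ℕ) 𝒪 θ
      →ₐ[𝒪] D.R) : heckeLocal (wilesLevel p .flat Smin Sig) (↑Sig : Set ℕ) 𝒪 θ →+* D.R) :=
    isLocalHom_algHom D.instIsLocalHom D.residue_surjective _
  have hψφ : ((e.symm : heckeLocal (wilesLevel p .flat Smin Sig) (↑Sig : Set ℕ) 𝒪 θ
      →ₐ[𝒪] D.R) : heckeLocal (wilesLevel p .flat Smin Sig) (↑Sig : Set ℕ) 𝒪 θ →+* D.R).comp
      (φ : D.R →+* heckeLocal (wilesLevel p .flat Smin Sig) (↑Sig : Set ℕ) 𝒪 θ) =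
      RingHom.id D.R := by
    ext x
    exact e.symm_apply_apply x
  have hDord : D.ρ.IsOrdinaryAt p := by
    have h1 := isEquiv_of_baseChangeAlong_bijective
      (φ : D.R →+* heckeLocal (wilesLevel p .flat Smin Sig) (↑Sig : Set ℕ) 𝒪 θ) hφ _ hψ hψφ D.ρ
    have h2 := isEquiv_baseChangeAlong _ hψ hφe
    exact Fermat.Agent.S59.H659.isOrdinaryAt_of_isEquiv (isEquiv_trans (isEquiv_symm h2) h1)
      (Fermat.Agent.S59.H659.isOrdinaryAt_baseChangeAlong _ hψ hHord)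
  have hDcond' : sigmaCond 𝒪 p .ord Smin Sig D.ρ := sigmaCond_ord_of_flat D.isOfType hDord
  -- the square
  obtain ⟨hφ'loc, hφ'e⟩ := hφ'
  obtain ⟨β, hβ, hβe, hsq⟩ := exists_square D D' hDcond' H.residue_surjective H.ρ H'.ρ hHcond'
    hHres (resLocal (levelPair_flat_ord p hSig hSigP hpSig) 𝒪 θ) hresloc hcompat φ hφ hφe
    φ' hφ'loc hφ'e
  have hφ's : Function.Surjective φ' :=
    surjective_of_compatible h54 D' H' hNS' hH'cond hH'res φ' ⟨hφ'loc, hφ'e⟩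
  -- the point and the unramified Frobenius eigenvalue
  have hπloc : IsLocalHom
      (π : heckeLocal (wilesLevel p .flat Smin Sig) (↑Sig : Set ℕ) 𝒪 θ →+* 𝒪) :=
    isLocalHom_algHom (𝒪 := 𝒪) ⟨fun _ ha => ha⟩
      (fun x => by
        obtain ⟨y, rfl⟩ := IsLocalRing.residue_surjective x
        exact ⟨y, rfl⟩) π
  have hxloc : IsLocalHom ((π.comp φ : D.R →ₐ[𝒪] 𝒪) : D.R →+* 𝒪) :=
    isLocalHom_algHom (𝒪 := 𝒪) ⟨fun _ ha => ha⟩
      (fun x => by
        obtain ⟨y, rfl⟩ := IsLocalRing.residue_surjective x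
        exact ⟨y, rfl⟩) _
  have hxe : (D.ρ.baseChangeAlong ((π.comp φ : D.R →ₐ[𝒪] 𝒪) : D.R →+* 𝒪) hxloc).IsEquiv
      (H.ρ.baseChangeAlong
        (π : heckeLocal (wilesLevel p .flat Smin Sig) (↑Sig : Set ℕ) 𝒪 θ →+* 𝒪) hπloc) := by
    have h1 := baseChangeAlong_comp_isEquiv'
      (φ : D.R →+* heckeLocal (wilesLevel p .flat Smin Sig) (↑Sig : Set ℕ) 𝒪 θ) hφ
      (π : heckeLocal (wilesLevel p .flat Smin Sig) (↑Sig : Set ℕ) 𝒪 θ →+* 𝒪) hπloc
      ((π.comp φ : D.R →ₐ[𝒪] 𝒪) : D.R →+* 𝒪) hxloc rfl D.ρ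
    exact isEquiv_trans (isEquiv_symm h1) (isEquiv_baseChangeAlong _ hπloc hφe)
  obtain ⟨α, hα⟩ := exists_unrFrobAt hpp (Fermat.Agent.S59.H659.isOrdinaryAt_baseChangeAlong _ hxloc hDord)
  -- Hecke side
  have : Finite (NC.Cot (π.comp φ)) := hfin
  have hfinT : Finite (NC.Cot π) := Fermat.Agent.S59.H427.finite_cot_of_bijective φ hbij π
  have hnumT : Nat.card (NC.Cot π) = Nat.card (𝒪 ⧸ NC.congIdeal π) := by
    rw [← Fermat.Agent.S59.H427.card_cot_comp_eq_of_bijective φ hbij π]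
    exact hnum
  obtain ⟨hα1, hη⟩ := hETA p 𝒪 ρbar Smin hRH Sig hSig hSigP hpSig hord θ H hHπ hHres hHcond
    π hπloc hfinT hnumT α (hα.of_isEquiv hxe)
  -- Galois side
  obtain ⟨hfin', hsel⟩ := hSEL p 𝒪 ρbar Smin hRH Sig hSig hSigP hord D D' β hβ hβe
    (π.comp φ) hxloc α hα hα1 hfin
  -- the numerical criterion
  set π' : heckeLocal (wilesLevel p .ord Smin Sig) (↑Sig : Set ℕ) 𝒪
      (θ.comp (oldRestrict (levelPair_flat_ord p hSig hSigP hpSig))) →ₐ[𝒪] 𝒪 :=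
    π.comp (resLocal (levelPair_flat_ord p hSig hSigP hpSig) 𝒪 θ) with hπ'
  have hcomp : π'.comp φ' = (π.comp φ).comp β := by
    rw [hπ', AlgHom.comp_assoc, hsq, AlgHom.comp_assoc]
  rw [← hcomp] at hfin' hsel
  have hle : Nat.card (NC.Cot (π'.comp φ')) ≤ Nat.card (𝒪 ⧸ NC.congIdeal π') :=
    calc Nat.card (NC.Cot (π'.comp φ'))
        ≤ Nat.card (NC.Cot (π.comp φ)) * Nat.card (𝒪 ⧸ Ideal.span {α ^ 2 - 1}) := hsel
      _ = Nat.card (𝒪 ⧸ NC.congIdeal π) * Nat.card (𝒪 ⧸ Ideal.span {α ^ 2 - 1}) := by rw [hnum]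
      _ ≤ Nat.card (𝒪 ⧸ NC.congIdeal π') := hη
  obtain ⟨h1, h2⟩ := Fermat.Agent.S59.H427.numerical_criterion_full_NC φ' hφ's π' hle
  exact ⟨h1, π', hfin', h2⟩

end Fermat.Agent.S59.NMP
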