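import Fermat.Agent.S59.NMP.Spec
import Fermat.Agent.S59.Arch.SpecRT2

/-!
# Row S59, cell NMP — module form of the interface (sub-architect helper583)

Target (architect's v3, `Arch/SpecRT2.lean`): `Arch.NonMinPMStatement`
(`RTIsoM .flat Smin Σ → RTIso .ord Smin Σ`, with the extra hypotheses `CurveCase`, `ρ̄` flat).

The Galois-side leaves `SelStatement`, `OrdDatumStatement` of `NMP/Spec.lean` are unchanged.
The Hecke-side leaf becomes

* `EtaMStatement` (ETA-M) = `EtaStatement` with the module invariant `PairInv … (η_T)²` of the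
  level `N` (and `CurveCase`, flatness of `ρ̄`) as additional hypotheses.

Glue (`NMP/GlueM.lean`): `nonMinPM_of : S53 → S54 → SigmaCond → DATUM → SEL → ETA-M →
Arch.NonMinPMStatement`.  Decomposition of ETA-M (leaves IH-p, CONG, LGC): `coord/S59-NMP.md` §3.
-/

set_option autoImplicit false

open Polynomial IsLocalRing

namespace Fermat.Agent.S59.NMP

open CuspForm Fermat.Agent.S59.Arch Fermat.Agent.S59.H765

/-- **ETA-M** (the Hecke step at `p`, module form).  In the situation of DATUM, let `π` be an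
`𝒪`-point of `T` at which the invariant of `RTIsoM .flat` holds (`#Φ_T = #(𝒪/η_T)` and the Gram
determinants of the eigenlattices `L × L^†` of level `N` lie in `η_T²`), and `α` the unramified
Frobenius eigenvalue of `ρ_π` at `p`.  Then `α² ≠ 1` and
`#(𝒪/η_T(π)) · #(𝒪/(α² − 1)) ≤ #(𝒪/η_{T'}(π ∘ res))`. -/
def EtaMStatement : Prop :=
  ∀ (p : ℕ) [Fact p.Prime]
    (𝒪 : Type) [CommRing 𝒪] [IsDomain 𝒪] [IsDiscreteValuationRing 𝒪]
    [IsAdicComplete (maximalIdeal 𝒪) 𝒪] [Finite (ResidueField 𝒪)] [CharZero 𝒪]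
    (ρbar : ResidualGaloisRep (ResidueField 𝒪)) (Smin : Finset ℕ)
    (_h : ResidualHyp p 𝒪 ρbar Smin) (_hc : CurveCase p ρbar) (Sig : Finset ℕ)
    (hSig : Smin ⊆ Sig) (hSigP : ∀ q ∈ Sig, q.Prime) (hpSig : p ∈ Sig)
    (_hflat : (GaloisRepAdic.ofResidualGaloisRep ρbar).IsFlatAt p)
    (_hord : (GaloisRepAdic.ofResidualGaloisRep ρbar).IsOrdinaryAt p)
    [NeZero (wilesLevel p .flat Smin Sig)]
    [Fact (HasIntegralStructure (wilesLevel p .flat Smin Sig) 2)]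
    [NeZero (wilesLevel p .ord Smin Sig)]
    [Fact (HasIntegralStructure (wilesLevel p .ord Smin Sig) 2)]
    (θ : heckeAlgebra (wilesLevel p .flat Smin Sig) 2 (↑Sig : Set ℕ) →+* ResidueField 𝒪)
    [IsLocalRing (heckeLocal (wilesLevel p .flat Smin Sig) (↑Sig : Set ℕ) 𝒪 θ)]
    [IsNoetherianRing (heckeLocal (wilesLevel p .flat Smin Sig) (↑Sig : Set ℕ) 𝒪 θ)]
    [IsAdicComplete (maximalIdeal (heckeLocal (wilesLevel p .flat Smin Sig) (↑Sig : Set ℕ) 𝒪 θ))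
      (heckeLocal (wilesLevel p .flat Smin Sig) (↑Sig : Set ℕ) 𝒪 θ)]
    [IsLocalHom (algebraMap 𝒪 (heckeLocal (wilesLevel p .flat Smin Sig) (↑Sig : Set ℕ) 𝒪 θ))]
    [Module.Finite 𝒪 (heckeLocal (wilesLevel p .flat Smin Sig) (↑Sig : Set ℕ) 𝒪 θ)]
    [Module.Free 𝒪 (heckeLocal (wilesLevel p .flat Smin Sig) (↑Sig : Set ℕ) 𝒪 θ)]
    (H : HeckeGaloisRepDatum (wilesLevel p .flat Smin Sig) (↑Sig : Set ℕ) 𝒪 θ
      (heckeLocal (wilesLevel p .flat Smin Sig) (↑Sig : Set ℕ) 𝒪 θ))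
    (_hπ : H.π = heckeLocal.π (wilesLevel p .flat Smin Sig) (↑Sig : Set ℕ) 𝒪 θ)
    (_hres : H.ρ.residual.IsEquiv (ρbar.baseChangeAlong (ResidueField.map (algebraMap 𝒪
      (heckeLocal (wilesLevel p .flat Smin Sig) (↑Sig : Set ℕ) 𝒪 θ)))))
    (_hcond : sigmaCond 𝒪 p .flat Smin Sig H.ρ)
    (π : heckeLocal (wilesLevel p .flat Smin Sig) (↑Sig : Set ℕ) 𝒪 θ →ₐ[𝒪] 𝒪)
    (hπloc : IsLocalHom
      (π : heckeLocal (wilesLevel p .flat Smin Sig) (↑Sig : Set ℕ) 𝒪 θ →+* 𝒪))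
    (_hfin : Finite (NC.Cot π))
    (_hnum : Nat.card (NC.Cot π) = Nat.card (𝒪 ⧸ NC.congIdeal π))
    (_hpair : PairInv (wilesLevel p .flat Smin Sig) Sig Smin
      (eigOf (wilesLevel p .flat Smin Sig) (↑Sig : Set ℕ) 𝒪 θ π) (NC.congIdeal π ^ 2))
    (α : 𝒪)
    (_hα : UnrFrobAt (H.ρ.baseChangeAlong
      (π : heckeLocal (wilesLevel p .flat Smin Sig) (↑Sig : Set ℕ) 𝒪 θ →+* 𝒪) hπloc) p α),
    α ^ 2 ≠ 1 ∧
      Nat.card (𝒪 ⧸ NC.congIdeal π) * Nat.card (𝒪 ⧸ Ideal.span {α ^ 2 - 1}) ≤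
        Nat.card (𝒪 ⧸ NC.congIdeal
          (π.comp (resLocal (levelPair_flat_ord p hSig hSigP hpSig) 𝒪 θ)))

end Fermat.Agent.S59.NMP
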