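import Fermat.Agent.S59.NMP.Glue
import Fermat.Agent.S59.NMP.Spec2

/-!
# Row S59, cell NMP — the glue, module form (helper583)

* `step_core` : the step at `p` for ONE flat deformation ring `D` with `φ : R ≃ T`, a point `π`
  with `Φ_R(π ∘ φ)` finite, and the Hecke-side inequality as a hypothesis.
* `nonMinPM_of : S53 → S54 → SigmaCond → DATUM → SEL → ETA-M → Arch.NonMinPMStatement`.
-/

set_option autoImplicit false

open Polynomial IsLocalRing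

namespace Fermat.Agent.S59.NMP

open CuspForm Fermat.Agent.S59.Arch Fermat.Agent.S59.H765 Fermat.Agent.S53.H113
open Fermat.Agent.S53

/-- `ρ̄` is of type `.flat`. -/
theorem sigmaCond_flat_residual {p : ℕ} [Fact p.Prime]
    {𝒪 : Type} [CommRing 𝒪] [IsDomain 𝒪] [IsDiscreteValuationRing 𝒪]
    [IsAdicComplete (maximalIdeal 𝒪) 𝒪]
    {ρbar : ResidualGaloisRep (ResidueField 𝒪)} {Smin Sig : Finset ℕ}
    (hRH : ResidualHyp p 𝒪 ρbar Smin) (hSig : Smin ⊆ Sig)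
    (hflat : (GaloisRepAdic.ofResidualGaloisRep ρbar).IsFlatAt p) :
    sigmaCond 𝒪 p .flat Smin Sig (GaloisRepAdic.ofResidualGaloisRep ρbar) := by
  refine ⟨⟨hRH.hdet, hflat, fun q hq hqS => ?_⟩, hRH.hunip⟩
  have hqp : q ≠ p := by
    rintro rfl
    exact hqS (hSig hRH.hpSmin)
  have hqm : q ∉ Smin := fun h => hqS (hSig h)
  have hunr : ρbar.IsUnramifiedAt q := by
    by_contra hn
    exact hqm ((hRH.hmin q hq hqp).mpr hn)
  intro P hP σ hσ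
  exact hunr P hP σ hσ

section Core

variable (p : ℕ) [Fact p.Prime]
  (𝒪 : Type) [CommRing 𝒪] [IsDomain 𝒪] [IsDiscreteValuationRing 𝒪]
  [IsAdicComplete (maximalIdeal 𝒪) 𝒪] [Finite (ResidueField 𝒪)] [CharZero 𝒪]
  (ρbar : ResidualGaloisRep (ResidueField 𝒪)) (Smin : Finset ℕ)
  (hRH : ResidualHyp p 𝒪 ρbar Smin) (Sig : Finset ℕ)
  (hSig : Smin ⊆ Sig) (hSigP : ∀ q ∈ Sig, q.Prime) (hpSig : p ∈ Sig)
  (hord : (GaloisRepAdic.ofResidualGaloisRep ρbar).IsOrdinaryAt p)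
  [NeZero (wilesLevel p .flat Smin Sig)]
  [Fact (HasIntegralStructure (wilesLevel p .flat Smin Sig) 2)]
  [NeZero (wilesLevel p .ord Smin Sig)]
  [Fact (HasIntegralStructure (wilesLevel p .ord Smin Sig) 2)]
  (θ : heckeAlgebra (wilesLevel p .flat Smin Sig) 2 (↑Sig : Set ℕ) →+* ResidueField 𝒪)
  [IsLocalRing (heckeLocal (wilesLevel p .flat Smin Sig) (↑Sig : Set ℕ) 𝒪 θ)]
  [IsNoetherianRing (heckeLocal (wilesLevel p .flat Smin Sig) (↑Sig : Set ℕ) 𝒪 θ)]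
  [IsAdicComplete (maximalIdeal (heckeLocal (wilesLevel p .flat Smin Sig) (↑Sig : Set ℕ) 𝒪 θ))
    (heckeLocal (wilesLevel p .flat Smin Sig) (↑Sig : Set ℕ) 𝒪 θ)]
  [IsLocalHom (algebraMap 𝒪 (heckeLocal (wilesLevel p .flat Smin Sig) (↑Sig : Set ℕ) 𝒪 θ))]
  [Module.Finite 𝒪 (heckeLocal (wilesLevel p .flat Smin Sig) (↑Sig : Set ℕ) 𝒪 θ)]
  [Module.Free 𝒪 (heckeLocal (wilesLevel p .flat Smin Sig) (↑Sig : Set ℕ) 𝒪 θ)]
  (H : HeckeGaloisRepDatum (wilesLevel p .flat Smin Sig) (↑Sig : Set ℕ) 𝒪 θ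
    (heckeLocal (wilesLevel p .flat Smin Sig) (↑Sig : Set ℕ) 𝒪 θ))
  (hHres : H.ρ.residual.IsEquiv (ρbar.baseChangeAlong (ResidueField.map (algebraMap 𝒪
    (heckeLocal (wilesLevel p .flat Smin Sig) (↑Sig : Set ℕ) 𝒪 θ)))))
  (hHcond : sigmaCond 𝒪 p .flat Smin Sig H.ρ)
  [IsLocalRing (heckeLocal (wilesLevel p .ord Smin Sig) (↑Sig : Set ℕ) 𝒪
    (θ.comp (oldRestrict (levelPair_flat_ord p hSig hSigP hpSig))))]
  [IsNoetherianRing (heckeLocal (wilesLevel p .ord Smin Sig) (↑Sig : Set ℕ) 𝒪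
    (θ.comp (oldRestrict (levelPair_flat_ord p hSig hSigP hpSig))))]
  [IsAdicComplete
    (maximalIdeal (heckeLocal (wilesLevel p .ord Smin Sig) (↑Sig : Set ℕ) 𝒪
      (θ.comp (oldRestrict (levelPair_flat_ord p hSig hSigP hpSig)))))
    (heckeLocal (wilesLevel p .ord Smin Sig) (↑Sig : Set ℕ) 𝒪
      (θ.comp (oldRestrict (levelPair_flat_ord p hSig hSigP hpSig))))]
  [IsLocalHom (algebraMap 𝒪 (heckeLocal (wilesLevel p .ord Smin Sig) (↑Sig : Set ℕ) 𝒪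
    (θ.comp (oldRestrict (levelPair_flat_ord p hSig hSigP hpSig)))))]
  [Module.Finite 𝒪 (heckeLocal (wilesLevel p .ord Smin Sig) (↑Sig : Set ℕ) 𝒪
    (θ.comp (oldRestrict (levelPair_flat_ord p hSig hSigP hpSig))))]
  [Module.Free 𝒪 (heckeLocal (wilesLevel p .ord Smin Sig) (↑Sig : Set ℕ) 𝒪
    (θ.comp (oldRestrict (levelPair_flat_ord p hSig hSigP hpSig))))]
  (H' : HeckeGaloisRepDatum (wilesLevel p .ord Smin Sig) (↑Sig : Set ℕ) 𝒪
    (θ.comp (oldRestrict (levelPair_flat_ord p hSig hSigP hpSig)))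
    (heckeLocal (wilesLevel p .ord Smin Sig) (↑Sig : Set ℕ) 𝒪
      (θ.comp (oldRestrict (levelPair_flat_ord p hSig hSigP hpSig)))))
  (hH'res : H'.ρ.residual.IsEquiv (ρbar.baseChangeAlong (ResidueField.map (algebraMap 𝒪
    (heckeLocal (wilesLevel p .ord Smin Sig) (↑Sig : Set ℕ) 𝒪
      (θ.comp (oldRestrict (levelPair_flat_ord p hSig hSigP hpSig))))))))
  (hH'cond : sigmaCond 𝒪 p .ord Smin Sig H'.ρ)
  (hresloc : IsLocalHom
    ((resLocal (levelPair_flat_ord p hSig hSigP hpSig) 𝒪 θ :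
      heckeLocal (wilesLevel p .ord Smin Sig) (↑Sig : Set ℕ) 𝒪
        (θ.comp (oldRestrict (levelPair_flat_ord p hSig hSigP hpSig))) →ₐ[𝒪]
      heckeLocal (wilesLevel p .flat Smin Sig) (↑Sig : Set ℕ) 𝒪 θ) :
      heckeLocal (wilesLevel p .ord Smin Sig) (↑Sig : Set ℕ) 𝒪
        (θ.comp (oldRestrict (levelPair_flat_ord p hSig hSigP hpSig))) →+*
      heckeLocal (wilesLevel p .flat Smin Sig) (↑Sig : Set ℕ) 𝒪 θ))
  (hcompat : (H'.ρ.baseChangeAlong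
    ((resLocal (levelPair_flat_ord p hSig hSigP hpSig) 𝒪 θ :
      heckeLocal (wilesLevel p .ord Smin Sig) (↑Sig : Set ℕ) 𝒪
        (θ.comp (oldRestrict (levelPair_flat_ord p hSig hSigP hpSig))) →ₐ[𝒪]
      heckeLocal (wilesLevel p .flat Smin Sig) (↑Sig : Set ℕ) 𝒪 θ) :
      heckeLocal (wilesLevel p .ord Smin Sig) (↑Sig : Set ℕ) 𝒪
        (θ.comp (oldRestrict (levelPair_flat_ord p hSig hSigP hpSig))) →+*
      heckeLocal (wilesLevel p .flat Smin Sig) (↑Sig : Set ℕ) 𝒪 θ) hresloc).IsEquiv H.ρ)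

set_option maxHeartbeats 1600000 in
include hRH hSigP hord hHres hHcond hH'res hH'cond hcompat in
/-- **The step at `p`, core.**  Flat level: a universal ring `D` with a compatible BIJECTIVE
`φ : R → T` and an `𝒪`-point `π` of `T` with `Φ_R(π ∘ φ)` finite.  Hecke-side input `hη`: for the
unramified Frobenius eigenvalue `α` of `ρ_π`, `α² ≠ 1` and
`#Φ_R(π ∘ φ) · #(𝒪/(α² − 1)) ≤ #(𝒪/η_{T'}(π ∘ res))`.  Conclusion: every compatible
`φ' : R' → T'` is bijective and the numerical equality holds at `π ∘ res`. -/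
theorem step_core (h54 : S54Statement) (hSEL : SelStatement)
    (D : GaloisRep.DeformationRingData 𝒪 ρbar (sigmaCond 𝒪 p .flat Smin Sig))
    (φ : D.R →ₐ[𝒪] heckeLocal (wilesLevel p .flat Smin Sig) (↑Sig : Set ℕ) 𝒪 θ)
    (hφ : IsLocalHom
      (φ : D.R →+* heckeLocal (wilesLevel p .flat Smin Sig) (↑Sig : Set ℕ) 𝒪 θ))
    (hφe : (D.ρ.baseChangeAlong
      (φ : D.R →+* heckeLocal (wilesLevel p .flat Smin Sig) (↑Sig : Set ℕ) 𝒪 θ) hφ).IsEquiv H.ρ)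
    (hbij : Function.Bijective φ)
    (π : heckeLocal (wilesLevel p .flat Smin Sig) (↑Sig : Set ℕ) 𝒪 θ →ₐ[𝒪] 𝒪)
    (hfin : Finite (NC.Cot (π.comp φ)))
    (hη : ∀ (hπloc : IsLocalHom
        (π : heckeLocal (wilesLevel p .flat Smin Sig) (↑Sig : Set ℕ) 𝒪 θ →+* 𝒪)) (α : 𝒪),
      UnrFrobAt (H.ρ.baseChangeAlong
        (π : heckeLocal (wilesLevel p .flat Smin Sig) (↑Sig : Set ℕ) 𝒪 θ →+* 𝒪) hπloc) p α →
      α ^ 2 ≠ 1 ∧
        Nat.card (NC.Cot (π.comp φ)) * Nat.card (𝒪 ⧸ Ideal.span {α ^ 2 - 1}) ≤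
          Nat.card (𝒪 ⧸ NC.congIdeal
            (π.comp (resLocal (levelPair_flat_ord p hSig hSigP hpSig) 𝒪 θ))))
    (D' : GaloisRep.DeformationRingData 𝒪 ρbar (sigmaCond 𝒪 p .ord Smin Sig))
    (φ' : D'.R →ₐ[𝒪] heckeLocal (wilesLevel p .ord Smin Sig) (↑Sig : Set ℕ) 𝒪
      (θ.comp (oldRestrict (levelPair_flat_ord p hSig hSigP hpSig))))
    (hφ' : ∃ hφ' : IsLocalHom (φ' : D'.R →+* heckeLocal (wilesLevel p .ord Smin Sig)
        (↑Sig : Set ℕ) 𝒪 (θ.comp (oldRestrict (levelPair_flat_ord p hSig hSigP hpSig)))),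
      (D'.ρ.baseChangeAlong (φ' : D'.R →+* heckeLocal (wilesLevel p .ord Smin Sig)
        (↑Sig : Set ℕ) 𝒪 (θ.comp (oldRestrict (levelPair_flat_ord p hSig hSigP hpSig))))
        hφ').IsEquiv H'.ρ) :
    Function.Bijective φ' ∧
      Finite (NC.Cot ((π.comp (resLocal (levelPair_flat_ord p hSig hSigP hpSig) 𝒪 θ)).comp φ')) ∧
      Nat.card (NC.Cot ((π.comp (resLocal (levelPair_flat_ord p hSig hSigP hpSig) 𝒪 θ)).comp φ')) =
        Nat.card (𝒪 ⧸ NC.congIdeal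
          (π.comp (resLocal (levelPair_flat_ord p hSig hSigP hpSig) 𝒪 θ))) := by
  classical
  have hpp : p.Prime := Fact.out
  have hNS' : ∀ q : ℕ, q.Prime → q ∣ wilesLevel p .ord Smin Sig → q ∈ (↑Sig : Set ℕ) :=
    fun q hq hd => Finset.mem_coe.mpr (prime_dvd_wilesLevel p .ord hSig hSigP hpSig hq hd)
  -- ordinarity at the flat level
  have hHord : H.ρ.IsOrdinaryAt p :=
    Fermat.Agent.S59.H659.isOrdinaryAt_of_isEquiv hcompat
      (Fermat.Agent.S59.H659.isOrdinaryAt_baseChangeAlong _ hresloc hH'cond.1.2.1)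
  have hHcond' : sigmaCond 𝒪 p .ord Smin Sig H.ρ := sigmaCond_ord_of_flat hHcond hHord
  let e : D.R ≃ₐ[𝒪] heckeLocal (wilesLevel p .flat Smin Sig) (↑Sig : Set ℕ) 𝒪 θ :=
    AlgEquiv.ofBijective φ hbij
  have hψ : IsLocalHom ((e.symm : heckeLocal (wilesLevel p .flat Smin Sig) (↑Sig : Set ℕ) 𝒪 θ
      →ₐ[𝒪] D.R) : heckeLocal (wilesLevel p .flat Smin Sig) (↑Sig : Set ℕ) 𝒪 θ →+* D.R) :=
    isLocalHom_algHom D.instIsLocalHom D.residue_surjective _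
  have hψφ : ((e.symm : heckeLocal (wilesLevel p .flat Smin Sig) (↑Sig : Set ℕ) 𝒪 θ
      →ₐ[𝒪] D.R) : heckeLocal (wilesLevel p .flat Smin Sig) (↑Sig : Set ℕ) 𝒪 θ →+* D.R).comp
      (φ : D.R →+* heckeLocal (wilesLevel p .flat Smin Sig) (↑Sig : Set ℕ) 𝒪 θ) =
      RingHom.id D.R := by
    ext x
    exact e.symm_apply_apply x
  have hDord : D.ρ.IsOrdinaryAt p := by
    have h1 := isEquiv_of_baseChangeAlong_bijective
      (φ : D.R →+* heckeLocal (wilesLevel p .flat Smin Sig) (↑Sig : Set ℕ) 𝒪 θ) hφ _ hψ hψφ D.ρ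
    have h2 := isEquiv_baseChangeAlong _ hψ hφe
    exact Fermat.Agent.S59.H659.isOrdinaryAt_of_isEquiv
      (isEquiv_trans (H113.isEquiv_symm h2) h1)
      (Fermat.Agent.S59.H659.isOrdinaryAt_baseChangeAlong _ hψ hHord)
  have hDcond' : sigmaCond 𝒪 p .ord Smin Sig D.ρ := sigmaCond_ord_of_flat D.isOfType hDord
  -- the square
  obtain ⟨hφ'loc, hφ'e⟩ := hφ'
  obtain ⟨β, hβ, hβe, hsq⟩ := exists_square D D' hDcond' H.residue_surjective H.ρ H'.ρ hHcond'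
    hHres (resLocal (levelPair_flat_ord p hSig hSigP hpSig) 𝒪 θ) hresloc hcompat φ hφ hφe
    φ' hφ'loc hφ'e
  have hφ's : Function.Surjective φ' :=
    surjective_of_compatible h54 D' H' hNS' hH'cond hH'res φ' ⟨hφ'loc, hφ'e⟩
  -- the point and the unramified Frobenius eigenvalue
  have hπloc : IsLocalHom
      (π : heckeLocal (wilesLevel p .flat Smin Sig) (↑Sig : Set ℕ) 𝒪 θ →+* 𝒪) :=
    isLocalHom_algHom (𝒪 := 𝒪) ⟨fun _ ha => ha⟩
      (fun x => by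
        obtain ⟨y, rfl⟩ := IsLocalRing.residue_surjective x
        exact ⟨y, rfl⟩) π
  have hxloc : IsLocalHom ((π.comp φ : D.R →ₐ[𝒪] 𝒪) : D.R →+* 𝒪) :=
    isLocalHom_algHom (𝒪 := 𝒪) ⟨fun _ ha => ha⟩
      (fun x => by
        obtain ⟨y, rfl⟩ := IsLocalRing.residue_surjective x
        exact ⟨y, rfl⟩) _
  have hxe : (D.ρ.baseChangeAlong ((π.comp φ : D.R →ₐ[𝒪] 𝒪) : D.R →+* 𝒪) hxloc).IsEquiv
      (H.ρ.baseChangeAlong
        (π : heckeLocal (wilesLevel p .flat Smin Sig) (↑Sig : Set ℕ) 𝒪 θ →+* 𝒪) hπloc) := by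
    have h1 := baseChangeAlong_comp_isEquiv'
      (φ : D.R →+* heckeLocal (wilesLevel p .flat Smin Sig) (↑Sig : Set ℕ) 𝒪 θ) hφ
      (π : heckeLocal (wilesLevel p .flat Smin Sig) (↑Sig : Set ℕ) 𝒪 θ →+* 𝒪) hπloc
      ((π.comp φ : D.R →ₐ[𝒪] 𝒪) : D.R →+* 𝒪) hxloc rfl D.ρ
    exact isEquiv_trans (H113.isEquiv_symm h1) (isEquiv_baseChangeAlong _ hπloc hφe)
  obtain ⟨α, hα⟩ := exists_unrFrobAt hpp
    (Fermat.Agent.S59.H659.isOrdinaryAt_baseChangeAlong _ hxloc hDord)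
  -- Hecke side
  obtain ⟨hα1, hηα⟩ := hη hπloc α (hα.of_isEquiv hxe)
  -- Galois side
  obtain ⟨hfin', hsel⟩ := hSEL p 𝒪 ρbar Smin hRH Sig hSig hSigP hord D D' β hβ hβe
    (π.comp φ) hxloc α hα hα1 hfin
  -- the numerical criterion
  set π' : heckeLocal (wilesLevel p .ord Smin Sig) (↑Sig : Set ℕ) 𝒪
      (θ.comp (oldRestrict (levelPair_flat_ord p hSig hSigP hpSig))) →ₐ[𝒪] 𝒪 :=
    π.comp (resLocal (levelPair_flat_ord p hSig hSigP hpSig) 𝒪 θ) with hπ'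
  have hcomp : π'.comp φ' = (π.comp φ).comp β := by
    rw [hπ', AlgHom.comp_assoc, hsq, AlgHom.comp_assoc]
  rw [← hcomp] at hfin' hsel
  have hle : Nat.card (NC.Cot (π'.comp φ')) ≤ Nat.card (𝒪 ⧸ NC.congIdeal π') :=
    hsel.trans hηα
  obtain ⟨h1, h2⟩ := Fermat.Agent.S59.H427.numerical_criterion_full_NC φ' hφ's π' hle
  exact ⟨h1, hfin', h2⟩

end Core

/-- **GLUE of the cell NMP, module form**: the architect's target `Arch.NonMinPMStatement` from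
the leaves DATUM, SEL, ETA-M. -/
theorem nonMinPM_of (h53 : S53Statement) (h54 : S54Statement) (hCOND : SigmaCondStatement)
    (hDAT : OrdDatumStatement) (hSEL : SelStatement) (hETA : EtaMStatement) :
    NonMinPMStatement := by
  intro p _ 𝒪 _ _ _ _ _ _ ρbar Smin hRH hc Sig hSig hSigP hflat hord hRT
  classical
  have hpSig : p ∈ Sig := hSig hRH.hpSmin
  obtain ⟨hN, hint, θ, i1, i2, i3, i4, i5, i6, H, hHπ, hHres, hHcond, hiso⟩ := hRT
  obtain ⟨hN', hint', j1, j2, j3, j4, j5, j6, H', hH'π, hH'res, hH'cond, hresloc, hcompat⟩ :=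
    hDAT p 𝒪 ρbar Smin hRH Sig hSig hSigP hpSig hord θ H hHπ hHres hHcond
  refine ⟨hN', hint', θ.comp (oldRestrict (levelPair_flat_ord p hSig hSigP hpSig)),
    j1, j2, j3, j4, j5, j6, H', hH'π, hH'res, hH'cond, ?_⟩
  intro D' φ' hφ'
  -- the flat deformation ring and `φ : R ≃ T`
  have hcfl := hCOND p hRH.hp2 𝒪 hRH.hp𝒪 .flat Smin Sig
  obtain ⟨D⟩ := h53 𝒪 ρbar _ hRH.habs hcfl.1 (sigmaCond_flat_residual hRH hSig hflat)
    (hcfl.2 ρbar)
  have hNS : ∀ q : ℕ, q.Prime → q ∣ wilesLevel p .flat Smin Sig → q ∈ (↑Sig : Set ℕ) :=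
    fun q hq hd => Finset.mem_coe.mpr (prime_dvd_wilesLevel p .flat hSig hSigP hpSig hq hd)
  obtain ⟨φ, -, hφ, hφe⟩ := h54 D H hNS hHcond hHres
  obtain ⟨hbij, π, hfin, hnum, hpair⟩ := hiso D φ ⟨hφ, hφe⟩
  have hfin0 : Finite (NC.Cot (π.comp φ)) := hfin
  have hfinT : Finite (NC.Cot π) := Fermat.Agent.S59.H427.finite_cot_of_bijective φ hbij π
  have hnumT : Nat.card (NC.Cot π) = Nat.card (𝒪 ⧸ NC.congIdeal π) := by
    rw [← Fermat.Agent.S59.H427.card_cot_comp_eq_of_bijective φ hbij π]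
    exact hnum
  obtain ⟨h1, h2, h3⟩ := step_core p 𝒪 ρbar Smin hRH Sig hSig hSigP hpSig hord θ H hHres hHcond
    H' hH'res hH'cond hresloc hcompat h54 hSEL D φ hφ hφe hbij π hfin
    (fun hπloc α hα => by
      obtain ⟨hα1, hle⟩ := hETA p 𝒪 ρbar Smin hRH hc Sig hSig hSigP hpSig hflat hord θ H hHπ
        hHres hHcond π hπloc hfinT hnumT hpair α hα
      refine ⟨hα1, ?_⟩
      rw [hnum]
      exact hle)
    D' φ' hφ'
  exact ⟨h1, _, h2, h3⟩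

end Fermat.Agent.S59.NMP
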