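import Fermat.Agent.S59.NMP.GlueM
import Fermat.Agent.S59.NMP.SpecP

/-!
# Row S59, cell NMP — the glue, `Plus` form (helper583)

* `nonMinPPlusH_of : S53 → S54 → SigmaCond → DATUM → SEL → ETA-P → Arch.NonMinPPlusHStatement`
  (the architect's target, board v5).
-/

set_option autoImplicit false

open Polynomial IsLocalRing

namespace Fermat.Agent.S59.NMP

open CuspForm Fermat.Agent.S59.Arch Fermat.Agent.S59.H765 Fermat.Agent.S53.H113
open Fermat.Agent.S53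

/-- **GLUE of the cell NMP, `Plus` form**: the architect's target `Arch.NonMinPPlusHStatement`
from the leaves DATUM, SEL, ETA-P. -/
theorem nonMinPPlusH_of (h53 : S53Statement) (h54 : S54Statement) (hCOND : SigmaCondStatement)
    (hDAT : OrdDatumStatement) (hSEL : SelStatement) (hETA : EtaPStatement) :
    NonMinPPlusHStatement := by
  intro p _ 𝒪 _ _ _ _ _ _ ρbar Smin hRH hc hNmin χ hχ Sig hSig hSigP hflat hord hRT
  classical
  have hpSig : p ∈ Sig := hSig hRH.hpSmin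
  obtain ⟨hN, hint, θ, i1, i2, i3, i4, i5, i6, H, hHπ, hHres, hHcond, π, hπa, hη, hiso⟩ := hRT
  obtain ⟨hN', hint', j1, j2, j3, j4, j5, j6, H', hH'π, hH'res, hH'cond, hresloc, hcompat⟩ :=
    hDAT p 𝒪 ρbar Smin hRH Sig hSig hSigP hpSig hord θ H hHπ hHres hHcond
  refine ⟨hN', hint', θ.comp (oldRestrict (levelPair_flat_ord p hSig hSigP hpSig)),
    j1, j2, j3, j4, j5, j6, H', hH'π, hH'res, hH'cond, ?_⟩
  intro D' φ' hφ'
  -- the flat deformation ring and `φ : R ≃ T`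
  have hcfl := hCOND p hRH.hp2 𝒪 hRH.hp𝒪 .flat Smin Sig
  obtain ⟨D⟩ := h53 𝒪 ρbar _ hRH.habs hcfl.1 (sigmaCond_flat_residual hRH hSig hflat)
    (hcfl.2 ρbar)
  have hNS : ∀ q : ℕ, q.Prime → q ∣ wilesLevel p .flat Smin Sig → q ∈ (↑Sig : Set ℕ) :=
    fun q hq hd => Finset.mem_coe.mpr (prime_dvd_wilesLevel p .flat hSig hSigP hpSig hq hd)
  obtain ⟨φ, -, hφ, hφe⟩ := h54 D H hNS hHcond hHres
  obtain ⟨hbij, hfin, hnum⟩ := hiso D φ ⟨hφ, hφe⟩
  obtain ⟨h1, h2, h3⟩ := step_core p 𝒪 ρbar Smin hRH Sig hSig hSigP hpSig hord θ H hHres hHcond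
    H' hH'res hH'cond hresloc hcompat h54 hSEL D φ hφ hφe hbij π hfin
    (fun hπloc α hα => by
      obtain ⟨hα1, hle⟩ := hETA p 𝒪 ρbar Smin hRH hc hNmin χ hχ Sig hSig hSigP hpSig hflat hord
        θ H hHπ hHres hHcond π hπloc hπa hη α hα
      refine ⟨hα1, ?_⟩
      rw [hnum]
      exact hle)
    D' φ' hφ'
  exact ⟨h1, _, h2, h3⟩

end Fermat.Agent.S59.NMP
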