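import Fermat.Agent.S59.NMP.Top
import Fermat.Agent.S59.NMP.H935.OrdDatum
import Fermat.Agent.S59.NMP.H341.StepPCurve
import Fermat.Agent.S59.NMP.Sel.Glue
import Fermat.Agent.S59.NMP.H139.PeuHopf
import Fermat.Agent.S59.H585.EtaFinal
import Fermat.Agent.S59.H563.Old
import Fermat.Agent.S59.NM.H709.EtaOfBound
import Fermat.Agent.S59.H659.SigmaCond

/-!
# Row S59, cell NMP — the cell with all CLOSED leaves plugged in (helper583)

State 23:00Z 27 Sep.  Closed on main and plugged in here:

* COND   `H659.sigmaCondStatement`;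
* DATUM  `H935.ordDatum_of` (helper935) — inputs `G4.G4Statement` and the shapes of the frozen
  S31, S33, S34;
* ETAB   `NM.H709.etaOfBound` (helper709);
* BB     `H585.bettiTarget_of_old` (helper585) with NM-OLD `H563.old563` (helper563, helper63);
* STEP-P `H341.boundStepP_of_old` (helper341) with NM-OLD;
* SEL    `Sel.sel_of` (helper139) with (F) `H139.peuHopf`; OPEN input: (K) `Sel.KumValStatement`.

OPEN leaves of the cell: `Sel.KumValStatement` (Kummer valuation element) and `LgcStatement`
(Eichler–Shimura at `p`).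
-/

set_option autoImplicit false

namespace Fermat.Agent.S59.NMP

open Fermat.Agent.S59.Arch

/-- **Cell NMP, wired**: `Arch.NonMinPPlusHStatement` from the frozen inputs S53, S54, G4, S31,
S33, S34 and the two open leaves (K) and LGC. -/
theorem nonMinPPlusH_wired (h53 : S53Statement) (h54 : S54Statement)
    (hG4 : Fermat.Agent.S59.G4.G4Statement) (h31 : H935.S31Shape) (h33 : H935.S33Shape)
    (h34 : H935.S34Shape) (hK : Sel.KumValStatement) (hLGC : LgcStatement) :
    NonMinPPlusHStatement :=
  nonMinPPlusH_of_leaves h53 h54 Fermat.Agent.S59.H659.sigmaCondStatement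
    (H935.ordDatum_of hG4 h31 h33 h34)
    (Sel.sel_of H139.peuHopf hK)
    Fermat.Agent.S59.NM.H709.etaOfBound
    (Fermat.Agent.S59.H585.bettiTarget_of_old Fermat.Agent.S59.H563.old563)
    (H341.boundStepP_of_old Fermat.Agent.S59.H563.old563)
    hLGC

end Fermat.Agent.S59.NMP
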