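import Fermat.Agent.S59.NMP.Wire
import Fermat.Agent.S59.NMP.H134.SelFinal
import Fermat.Agent.S59.NMP.H341.StepPFinal
import Fermat.Agent.S59.NMP.H161.Betti
import Fermat.Agent.S59.NMP.H587.Betti

/-!
# Row S59, cell NMP — the cell with all CLOSED leaves plugged in, state 23:40Z (helper583)

Closed on main since `NMP/Wire.lean`: SEL (`H134.sel`, helper134/139/601/649/254), BETTI
(`H161.lgc_of_eig`, helper161; character form `H587.lgc_of_char`, helper587), MAXUNR
(`H296.maxUnrGood_h296`) and CORE (`H135.lgcCore`).  The cell NMP is now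

    nonMinPPlusH_of_eig  : S53 → S54 → G4 → S31Shape → S33Shape → S34Shape → H135.LgcEigStatement
                           → Arch.NonMinPPlusHStatement
    nonMinPPlusH_of_char : S53 → S54 → G4 → S31Shape → S33Shape → S34Shape → H587.LgcCharStatement
                           → Arch.NonMinPPlusHStatement

i.e. ONE open leaf, in either of its two accepted forms: EIG (`H135.LgcEigStatement`, operator
form on eigen-homs) or LGC-CHAR (`H587.LgcCharStatement`, the quadratic relation
`α² - χ(T_p) α + p = 0` for characters of the Hecke algebra containing `T_p`); both are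
Eichler–Shimura at `p` on the Tate eigenmodule and follow from CORE.  The other hypotheses are
the frozen statements of other rows.
-/

set_option autoImplicit false

namespace Fermat.Agent.S59.NMP

open Fermat.Agent.S59.Arch

/-- **Cell NMP from LGC** (SEL plugged in). -/
theorem nonMinPPlusH_of_lgc (h53 : S53Statement) (h54 : S54Statement)
    (hG4 : Fermat.Agent.S59.G4.G4Statement) (h31 : H935.S31Shape) (h33 : H935.S33Shape)
    (h34 : H935.S34Shape) (hLGC : LgcStatement) : NonMinPPlusHStatement :=
  nonMinPPlusH_of_leaves h53 h54 Fermat.Agent.S59.H659.sigmaCondStatement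
    (H935.ordDatum_of hG4 h31 h33 h34) H134.sel
    Fermat.Agent.S59.NM.H709.etaOfBound
    (Fermat.Agent.S59.H585.bettiTarget_of_old Fermat.Agent.S59.H563.old563)
    H341.boundStepP hLGC

/-- **Cell NMP from EIG** (SEL and BETTI plugged in). -/
theorem nonMinPPlusH_of_eig (h53 : S53Statement) (h54 : S54Statement)
    (hG4 : Fermat.Agent.S59.G4.G4Statement) (h31 : H935.S31Shape) (h33 : H935.S33Shape)
    (h34 : H935.S34Shape) (hEIG : H135.LgcEigStatement) : NonMinPPlusHStatement :=
  nonMinPPlusH_of_lgc h53 h54 hG4 h31 h33 h34 (H161.lgc_of_eig hEIG)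

/-- **Cell NMP from LGC-CHAR** (SEL and the character bridge plugged in). -/
theorem nonMinPPlusH_of_char (h53 : S53Statement) (h54 : S54Statement)
    (hG4 : Fermat.Agent.S59.G4.G4Statement) (h31 : H935.S31Shape) (h33 : H935.S33Shape)
    (h34 : H935.S34Shape) (hCHAR : H587.LgcCharStatement) : NonMinPPlusHStatement :=
  nonMinPPlusH_of_lgc h53 h54 hG4 h31 h33 h34 (H587.lgc_of_char hCHAR)

end Fermat.Agent.S59.NMP
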